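import Fermat.Agent.ThreePrimesClasses.Series
import Fermat.Agent.AlmostGoldbach.Singular

/-!
# The singular series for two primes in prescribed classes

For `n ≡ a₁ + a₂ (mod m)` the sum over `q ≤ P` of the coefficients of the arcs is
`m / φ (m) ^ 2 𝔖₂ (m, n)` up to `O (d (n) P ^ (- 1/4))`, `𝔖₂ (m, n)` being the Euler product of
the series for two primes over the primes not dividing `m`, at least `1/2` if `m` or `n` is even.
-/

set_option autoImplicit false

noncomputable section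

namespace FA.BinaryClasses

open Finset Complex Filter ArithmeticFunction
open FA.ThreePrimes (eAdd moebiusR ramanujan unitResidues)
open FA.AlmostGoldbach (pairTerm pairConst)
open FA.ThreePrimesClasses (classFactor)
open scoped Topology

/-- The terms prime to `m`. -/
def binPart (m n : ℕ) : ArithmeticFunction ℝ :=
  ⟨fun d => if d.Coprime m then pairTerm n d else 0, by simp⟩

theorem binPart_apply (m n d : ℕ) :
    binPart m n d = if d.Coprime m then pairTerm n d else 0 := rfl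

theorem binPart_isMultiplicative (m n : ℕ) : (binPart m n).IsMultiplicative := by
  refine ⟨by simp [binPart_apply, (AlmostGoldbach.pairTerm_isMultiplicative n).1],
    fun {u v} h => ?_⟩
  simp only [binPart_apply, Nat.coprime_mul_iff_left]
  by_cases hu : u.Coprime m <;> by_cases hv : v.Coprime m
  · rw [if_pos ⟨hu, hv⟩, if_pos hu, if_pos hv,
      (AlmostGoldbach.pairTerm_isMultiplicative n).2 h]
  · rw [if_neg fun h' => hv h'.2, if_neg hv, mul_zero]
  · rw [if_neg fun h' => hu h'.1, if_neg hu, zero_mul]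
  · rw [if_neg fun h' => hu h'.1, if_neg hu, zero_mul]

theorem abs_binPart_le (m n q : ℕ) : |binPart m n q| ≤ |pairTerm n q| := by
  rw [binPart_apply]
  split_ifs
  · exact le_rfl
  · rw [abs_zero]
    exact abs_nonneg _

theorem summable_binPart (m : ℕ) {n : ℕ} (hn : n ≠ 0) : Summable fun q => ‖binPart m n q‖ :=
  Summable.of_nonneg_of_le (fun _ => norm_nonneg _) (fun q => abs_binPart_le m n q)
    (AlmostGoldbach.summable_pair hn)

/-- The series for two primes without the primes of `m`. -/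
def binSeries (m n : ℕ) : ℝ := ∑' d, binPart m n d

theorem abs_binSeries_sub_le (m : ℕ) {n : ℕ} (hn : n ≠ 0) (P : ℕ) :
    |binSeries m n - ∑ q ∈ Icc 1 P, binPart m n q| ≤
      pairConst * n.divisors.card * ((P + 1 : ℕ) : ℝ) ^ (-(1 / 4) : ℝ) := by
  have h0 : ∑ q ∈ Icc 1 P, binPart m n q = ∑ q ∈ range (P + 1), binPart m n q := by
    rw [range_eq_Ico, sum_eq_sum_Ico_succ_bot (Nat.succ_pos P), ArithmeticFunction.map_zero,
      zero_add]
    rfl
  rw [h0, binSeries, ← Summable.sum_add_tsum_nat_add (P + 1) (summable_binPart m hn).of_norm,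
    add_sub_cancel_left, ← Real.norm_eq_abs]
  refine (norm_tsum_le_tsum_norm ((summable_nat_add_iff (f := fun q => ‖binPart m n q‖) (P + 1)).2
    (summable_binPart m hn))).trans
      (Real.tsum_le_of_sum_range_le (fun i => norm_nonneg _) fun Q => ?_)
  refine le_trans ?_ (AlmostGoldbach.sum_abs_pairTerm_le hn P (P + Q))
  rw [show Ioc P (P + Q) = Ico (P + 1) (P + Q + 1) by ext; simp, sum_Ico_eq_sum_range,
    show P + Q + 1 - (P + 1) = Q by omega]
  exact sum_le_sum fun i _ => by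
    rw [Real.norm_eq_abs, add_comm i]
    exact abs_binPart_le m n _

theorem abs_binSeries_le (m : ℕ) {n : ℕ} (hn : n ≠ 0) :
    |binSeries m n| ≤ pairConst * n.divisors.card := by
  simpa using abs_binSeries_sub_le m hn 0

theorem tsum_binPart_prime_pow (m n : ℕ) {p : ℕ} (hp : p.Prime) :
    ∑' e, binPart m n (p ^ e) = if p ∣ m then 1 else 1 + pairTerm n p := by
  rw [tsum_eq_sum (s := range 2) fun e he => ?_]
  · rw [sum_range_succ, sum_range_one, pow_zero, pow_one, (binPart_isMultiplicative m n).1,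
      binPart_apply]
    by_cases h : p ∣ m
    · rw [if_pos h, if_neg fun hc => (hp.coprime_iff_not_dvd.1 hc) h, add_zero]
    · rw [if_neg h, if_pos (hp.coprime_iff_not_dvd.2 h)]
  · rw [mem_range] at he
    rw [binPart_apply, AlmostGoldbach.pairTerm_apply, moebiusR, intCoe_apply,
      moebius_apply_prime_pow hp (by omega), if_neg (show e ≠ 1 by omega)]
    simp

theorem tendsto_binSeries (m : ℕ) {n : ℕ} (hn : n ≠ 0) :
    Tendsto (fun k : ℕ => ∏ p ∈ k.primesBelow, if p ∣ m then 1 else 1 + pairTerm n p) atTop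
      (𝓝 (binSeries m n)) :=
  ((binPart_isMultiplicative m n).eulerProduct (summable_binPart m hn)).congr fun _ =>
    prod_congr rfl fun _ hp => tsum_binPart_prime_pow m n (Nat.mem_primesBelow.1 hp).2

/-- **At least `1/2`.** -/
theorem half_le_binSeries {m n : ℕ} (hn : n ≠ 0) (h : 2 ∣ m ∨ Even n) :
    1 / 2 ≤ binSeries m n := by
  refine ge_of_tendsto' (tendsto_binSeries m hn)
    fun k => (ThreePrimes.half_le_prod_telescope k).trans ?_
  refine le_trans (prod_le_prod_of_subset_of_le_one (s := k.primesBelow)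
    (fun p hp => (mem_filter.1 hp).1) (fun j _ => (ThreePrimes.telescope_bounds j).1.le)
    fun j _ _ => (ThreePrimes.telescope_bounds j).2)
    (prod_le_prod (fun j _ => (ThreePrimes.telescope_bounds j).1.le) fun p hp => ?_)
  rw [Nat.mem_primesBelow] at hp
  split_ifs with hd
  · exact (ThreePrimes.telescope_bounds p).2
  rcases eq_or_ne p 2 with rfl | hp2
  · exact AlmostGoldbach.telescope_le_pairFactor (h.resolve_left hd) hp.2
  rcases Nat.even_or_odd n with he | ho
  · exact AlmostGoldbach.telescope_le_pairFactor he hp.2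
  · have hterm : pairTerm n p = pairTerm (n + p) p := by
      rw [AlmostGoldbach.pairTerm_apply, AlmostGoldbach.pairTerm_apply,
        ThreePrimes.ramanujan_prime n hp.2, ThreePrimes.ramanujan_prime (n + p) hp.2]
      simp only [Nat.dvd_add_self_right]
    rw [hterm]
    exact AlmostGoldbach.telescope_le_pairFactor (ho.add_odd (hp.2.odd_of_ne_two hp2)) hp.2

/-- The sum over the centres with denominator `q`. -/
def binTerm (m a₁ a₂ n q : ℕ) : ℂ :=
  ∑ r ∈ unitResidues q, classFactor m a₁ q r * classFactor m a₂ q r *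
    eAdd (-((n : ℝ) * ((r : ℝ) / q)))

/-- **The term of `q = g d`.** -/
theorem binTerm_eq {m a₁ a₂ n g d : ℕ} (hm : 0 < m) (hd : 0 < d) (hgm : g ∣ m)
    (hdm : d.Coprime m) (h₁ : a₁.Coprime m) (h₂ : a₂.Coprime m)
    (hn : n ≡ a₁ + a₂ [MOD m]) :
    binTerm m a₁ a₂ n (g * d) =
      (((g.totient : ℝ) / (m.totient : ℝ) ^ 2 * binPart m n d : ℝ) : ℂ) := by
  obtain ⟨b₁, hb₁⟩ := ThreePrimesClasses.exists_class_inverse hm hdm a₁
  obtain ⟨b₂, hb₂⟩ := ThreePrimesClasses.exists_class_inverse hm hdm a₂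
  have hg : 0 < g := Nat.pos_of_dvd_of_pos hgm hm
  obtain ⟨q, hq⟩ : ∃ q, q = g * d := ⟨_, rfl⟩
  have hq0 : 0 < q := hq ▸ Nat.mul_pos hg hd
  obtain ⟨B, hB⟩ : ∃ B, B = b₁ + b₂ := ⟨_, rfl⟩
  obtain ⟨n', hn'⟩ : ∃ n', n' = n + (q - 1) * (d * B) := ⟨_, rfl⟩
  obtain ⟨K, hK⟩ : ∃ K : ℝ, K = moebiusR d / ((m.totient : ℝ) * d.totient) := ⟨_, rfl⟩
  have hterm : ∀ r ∈ unitResidues q,
      classFactor m a₁ q r * classFactor m a₂ q r * eAdd (-((n : ℝ) * ((r : ℝ) / q))) =
      ((K ^ 2 : ℝ) : ℂ) * eAdd (((-n' : ℤ) : ℝ) * r / q) := by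
    intro r hr
    rw [unitResidues, mem_filter, hq] at hr
    subst hq
    rw [ThreePrimesClasses.classFactor_eq hm hd hgm hdm hr.2 h₁ hb₁,
      ThreePrimesClasses.classFactor_eq hm hd hgm hdm hr.2 h₂ hb₂, ← hK]
    have e : eAdd ((r : ℝ) * b₁ / g) * eAdd ((r : ℝ) * b₂ / g) *
        eAdd (-((n : ℝ) * ((r : ℝ) / (g * d : ℕ)))) =
        eAdd (((-n' : ℤ) : ℝ) * r / (g * d : ℕ)) := by
      rw [← ThreePrimes.eAdd_add, ← ThreePrimes.eAdd_add,
        ← ThreePrimes.eAdd_add_intCast (((-n' : ℤ) : ℝ) * r / (g * d : ℕ))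
          ((r * (d * B) : ℕ) : ℤ)]
      congr 1
      rw [hn', hB]
      have hg' : (g : ℝ) ≠ 0 := Nat.cast_ne_zero.2 hg.ne'
      have hd' : (d : ℝ) ≠ 0 := Nat.cast_ne_zero.2 hd.ne'
      push_cast [Nat.cast_sub (show 1 ≤ g * d from Nat.mul_pos hg hd)]
      field_simp
      ring
    rw [← e]
    push_cast
    ring
  rw [binTerm, ← hq, sum_congr rfl hterm, ← mul_sum, ← ThreePrimes.ramanujan_eq hq0,
    ← Complex.ofReal_mul]
  congr 1
  have hmult : (ramanujan n').IsMultiplicative :=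
    ThreePrimes.moebiusR_isMultiplicative.mul (ThreePrimes.divPart_isMultiplicative n')
  have hcop : g.Coprime d := (hdm.coprime_dvd_right hgm).symm
  have e1 : ramanujan n' d = ramanujan n d := ThreePrimesClasses.ramanujan_congr fun e he => by
    rw [hn']
    exact Nat.dvd_add_left ((he.trans (dvd_mul_right d B)).trans (dvd_mul_left _ _))
  have e2 : g ∣ n' := by
    have h4 : d * B ≡ n [MOD m] := by
      rw [hB, mul_add]
      exact ((Nat.ModEq.add hb₁ hb₂).trans hn.symm)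
    have h5 : n' + d * B ≡ n [MOD g] := by
      have h6 : n' + d * B = n + q * (d * B) := by
        rw [hn', add_assoc, ← add_one_mul, Nat.sub_add_cancel (show 1 ≤ q from hq0)]
      rw [h6]
      exact ((Nat.modEq_zero_iff_dvd.2 ((hq ▸ dvd_mul_right g d).trans
        (dvd_mul_right _ _))).add_left n).trans (by rw [add_zero])
    exact Nat.modEq_zero_iff_dvd.1
      (Nat.ModEq.add_right_cancel (h4.of_dvd hgm) (h5.trans (by rw [zero_add])))
  rw [hq, hmult.2 hcop, ThreePrimesClasses.ramanujan_of_dvd hg e2, e1, binPart_apply, if_pos hdm,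
    AlmostGoldbach.pairTerm_apply, hK, div_pow, mul_pow]
  ring

theorem binTerm_eq_zero {m a₁ a₂ n q : ℕ} (hm : 0 < m) (hq : 0 < q) (h₁ : a₁.Coprime m)
    (h : ¬ (q / q.gcd m).Coprime m) : binTerm m a₁ a₂ n q = 0 := by
  refine sum_eq_zero fun r hr => ?_
  rw [ThreePrimesClasses.classFactor_eq_zero hm hq (mem_filter.1 hr).2 h₁ h]
  simp

/-- The total over the classes. -/
def binMain (m n : ℕ) : ℝ := (m : ℝ) / (m.totient : ℝ) ^ 2 * binSeries m n

theorem abs_binMain_le {m n : ℕ} (hm : 0 < m) (hn : n ≠ 0) :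
    |binMain m n| ≤ m * (pairConst * n.divisors.card) := by
  have hφ : (1 : ℝ) ≤ (m.totient : ℝ) := Nat.one_le_cast.2 (Nat.totient_pos.2 hm)
  rw [binMain, abs_mul, abs_of_nonneg (show (0 : ℝ) ≤ (m : ℝ) / (m.totient : ℝ) ^ 2 by
    positivity)]
  exact mul_le_mul (div_le_self (Nat.cast_nonneg m) (one_le_pow₀ hφ)) (abs_binSeries_le m hn)
    (abs_nonneg _) (Nat.cast_nonneg m)

/-- **The sum over `q ≤ P`.** -/
theorem norm_sum_binTerm_sub_le {m a₁ a₂ : ℕ} (hm : 0 < m) (h₁ : a₁.Coprime m)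
    (h₂ : a₂.Coprime m) {n : ℕ} (hn0 : n ≠ 0) (P : ℕ) (hn : n ≡ a₁ + a₂ [MOD m]) :
    ‖(∑ q ∈ Icc 1 P, binTerm m a₁ a₂ n q) - (binMain m n : ℂ)‖ ≤
      (m : ℝ) ^ 2 * pairConst * n.divisors.card * ((P + 1 : ℕ) : ℝ) ^ (-(1 / 4) : ℝ) := by
  classical
  have hmr : (0 : ℝ) < m := Nat.cast_pos.2 hm
  have hφ : (1 : ℝ) ≤ (m.totient : ℝ) := Nat.one_le_cast.2 (Nat.totient_pos.2 hm)
  have hPC := AlmostGoldbach.pairConst_nonneg
  have hsplit : ∑ q ∈ Icc 1 P, binTerm m a₁ a₂ n q = ((∑ g ∈ m.divisors,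
      (g.totient : ℝ) / (m.totient : ℝ) ^ 2 * ∑ d ∈ Icc 1 (P / g), binPart m n d : ℝ) : ℂ) := by
    rw [← sum_fiberwise_of_maps_to (g := fun q => q.gcd m) (t := m.divisors) fun q _ =>
      Nat.mem_divisors.2 ⟨Nat.gcd_dvd_right q m, hm.ne'⟩, Complex.ofReal_sum]
    refine sum_congr rfl fun g hg => ?_
    rw [Nat.mem_divisors] at hg
    have hg0 : 0 < g := Nat.pos_of_dvd_of_pos hg.1 hm
    rw [mul_sum, Complex.ofReal_sum,
      ← sum_filter_add_sum_filter_not ((Icc 1 P).filter fun q => q.gcd m = g)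
        (fun q => (q / g).Coprime m),
      sum_eq_zero (s := ((Icc 1 P).filter fun q => q.gcd m = g).filter
        fun q => ¬ (q / g).Coprime m) fun q hq => ?_, add_zero]
    swap
    · rw [mem_filter, mem_filter, mem_Icc] at hq
      exact binTerm_eq_zero hm hq.1.1.1 h₁ (hq.1.2.symm ▸ hq.2)
    rw [← sum_filter_add_sum_filter_not (Icc 1 (P / g)) (fun d => d.Coprime m)
        (fun d => (((g.totient : ℝ) / (m.totient : ℝ) ^ 2 * binPart m n d : ℝ) : ℂ)),
      sum_eq_zero (s := (Icc 1 (P / g)).filter fun d => ¬ d.Coprime m) fun d hd => ?_, add_zero]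
    swap
    · rw [binPart_apply, if_neg (mem_filter.1 hd).2, mul_zero, Complex.ofReal_zero]
    refine sum_nbij' (fun q => q / g) (fun d => g * d) (fun q hq => ?_) (fun d hd => ?_)
      (fun q hq => ?_) (fun d _ => Nat.mul_div_cancel_left d hg0) (fun q hq => ?_)
    · rw [mem_filter, mem_filter, mem_Icc] at hq
      have hdvd : g ∣ q := hq.1.2 ▸ Nat.gcd_dvd_left q m
      exact mem_filter.2 ⟨mem_Icc.2 ⟨Nat.div_pos (Nat.le_of_dvd hq.1.1.1 hdvd) hg0,
        Nat.div_le_div_right hq.1.1.2⟩, hq.2⟩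
    · rw [mem_filter, mem_Icc] at hd
      rw [mem_filter, mem_filter, mem_Icc, Nat.mul_div_cancel_left d hg0,
        hd.2.gcd_mul_right_cancel, Nat.gcd_eq_left hg.1]
      refine ⟨⟨⟨Nat.mul_pos hg0 hd.1.1, ?_⟩, rfl⟩, hd.2⟩
      exact (Nat.mul_le_mul_left g hd.1.2).trans (Nat.mul_div_le P g)
    · rw [mem_filter, mem_filter] at hq
      exact Nat.mul_div_cancel' (hq.1.2 ▸ Nat.gcd_dvd_left q m)
    · rw [mem_filter, mem_filter, mem_Icc] at hq
      have hdvd : g ∣ q := hq.1.2 ▸ Nat.gcd_dvd_left q m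
      have h := binTerm_eq (d := q / g) hm (Nat.div_pos (Nat.le_of_dvd hq.1.1.1 hdvd) hg0) hg.1
        hq.2 h₁ h₂ hn
      rwa [Nat.mul_div_cancel' hdvd] at h
  have hmain : binMain m n =
      ∑ g ∈ m.divisors, (g.totient : ℝ) / (m.totient : ℝ) ^ 2 * binSeries m n := by
    rw [binMain, ← sum_mul, ← sum_div, ← Nat.cast_sum, Nat.sum_totient]
  rw [hsplit, hmain, ← Complex.ofReal_sub, Complex.norm_real, Real.norm_eq_abs,
    ← sum_sub_distrib]
  refine (abs_sum_le_sum_abs _ _).trans ((sum_le_sum (g := fun g : ℕ => (g.totient : ℝ) *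
    (pairConst * n.divisors.card * (m * ((P + 1 : ℕ) : ℝ) ^ (-(1 / 4) : ℝ))))
    fun g hg => ?_).trans ?_)
  · rw [Nat.mem_divisors] at hg
    have hg0 : 0 < g := Nat.pos_of_dvd_of_pos hg.1 hm
    rw [← mul_sub, abs_mul, abs_sub_comm,
      abs_of_nonneg (show (0 : ℝ) ≤ (g.totient : ℝ) / (m.totient : ℝ) ^ 2 by positivity)]
    refine mul_le_mul (div_le_self (Nat.cast_nonneg _) (one_le_pow₀ hφ))
      ((abs_binSeries_sub_le m hn0 (P / g)).trans (mul_le_mul_of_nonneg_left ?_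
        (mul_nonneg hPC (Nat.cast_nonneg _)))) (abs_nonneg _) (Nat.cast_nonneg _)
    have hP1 : (0 : ℝ) < ((P + 1 : ℕ) : ℝ) := Nat.cast_pos.2 (Nat.succ_pos P)
    have hle : ((P + 1 : ℕ) : ℝ) / m ≤ ((P / g + 1 : ℕ) : ℝ) := by
      rw [div_le_iff₀ hmr]
      have h1 : P + 1 ≤ (P / g + 1) * g := by
        have := Nat.lt_div_mul_add (a := P) hg0
        rw [add_one_mul]
        omega
      exact_mod_cast h1.trans (Nat.mul_le_mul_left _ (Nat.le_of_dvd hm hg.1))
    refine (Real.rpow_le_rpow_of_nonpos (by positivity) hle (by norm_num)).trans ?_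
    rw [Real.div_rpow hP1.le hmr.le, Real.rpow_neg hmr.le, div_inv_eq_mul, mul_comm]
    refine mul_le_mul_of_nonneg_right ?_ (by positivity)
    exact (Real.rpow_le_rpow_of_exponent_le (Nat.one_le_cast.2 hm)
      (show (1 / 4 : ℝ) ≤ 1 by norm_num)).trans (le_of_eq (Real.rpow_one _))
  · rw [← sum_mul, ← Nat.cast_sum, Nat.sum_totient]
    exact le_of_eq (by ring)

end FA.BinaryClasses
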