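import Fermat.Agent.ThreePrimesClasses.Arcs
import Fermat.Agent.BinaryClasses.Series
import Fermat.Agent.AlmostGoldbach.Circle

/-!
# The mean square for two primes in prescribed classes

`∑ (∑_{i + j = n} Λ i Λ j - m / φ (m) ^ 2 𝔖₂ (m, n) n)² = O (X³ / (log X) ^ e)`, over the
`n ≤ X` with `n ≡ a₁ + a₂ (mod m)`, the inner sum over `i ≡ a₁`, `j ≡ a₂ (mod m)`.
-/

set_option autoImplicit false

noncomputable section

namespace FA.BinaryClasses

open Finset Complex ArithmeticFunction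
open FA.ThreePrimes (eAdd nearDist clip trigSum geomSum arc arcCentres centre unitResidues)
open FA.AlmostGoldbach (pairConst pairSum mainPair)
open FA.ThreePrimesClasses (classFactor classLambda classTwist)
open scoped Real ComplexConjugate

/-- The weighted pairs with sum `n` in `[1, X]`. -/
def binPairs (m a₁ a₂ X n : ℕ) : ℂ :=
  ∑ i ∈ Icc 1 X, ∑ j ∈ Icc 1 X,
    if i + j = n then (classLambda m a₁ i : ℂ) * (classLambda m a₂ j : ℂ) else 0

/-- The grid for two different weights. -/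
theorem sum_pair_grid (f g : ℕ → ℂ) {X M n : ℕ} (hM : 3 * X ≤ M) (hn : n ≤ X) :
    ∑ h ∈ range M, trigSum f X ((h : ℝ) / M) * trigSum g X ((h : ℝ) / M) *
        eAdd (-(n * ((h : ℝ) / M))) =
      M * ∑ i ∈ Icc 1 X, ∑ j ∈ Icc 1 X, if i + j = n then f i * g j else 0 := by
  have e : ∀ x : ℝ, trigSum f X x * trigSum g X x * eAdd (-(n * x)) =
      ∑ i ∈ Icc 1 X, ∑ j ∈ Icc 1 X,
        f i * g j * eAdd ((((i : ℤ) + j - n : ℤ) : ℝ) * x) := by
    intro x
    rw [trigSum, trigSum, sum_mul_sum, sum_mul]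
    simp only [sum_mul]
    refine sum_congr rfl fun i _ => sum_congr rfl fun j _ => ?_
    push_cast
    rw [show ((i : ℝ) + j - n) * x = i * x + j * x + -(n * x) by ring,
      ThreePrimes.eAdd_add, ThreePrimes.eAdd_add]
    ring
  simp only [e]
  rw [sum_comm, mul_sum]
  refine sum_congr rfl fun i hi => ?_
  rw [sum_comm, mul_sum]
  refine sum_congr rfl fun j hj => ?_
  rw [mem_Icc] at hi hj
  rw [← mul_sum]
  simp only [← mul_div_assoc]
  rw [ThreePrimes.sum_eAdd_grid (by omega)]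
  by_cases h : i + j = n
  · rw [if_pos h, show ((i : ℤ) + j - n) = 0 by omega, if_pos (dvd_zero _)]
    ring
  · rw [if_neg h, if_neg]
    · simp
    · intro hd
      have := Int.le_of_dvd (abs_pos.2 (show ((i : ℤ) + j - n) ≠ 0 by omega)) ((dvd_abs _ _).2 hd)
      have : |((i : ℤ) + j - n)| < M := abs_lt.2 ⟨by omega, by omega⟩
      omega

/-- **The mean square**, for large `X`. -/
theorem exists_bin_mean_square_large {m a₁ a₂ : ℕ} (hm : 0 < m) (h₁ : a₁.Coprime m)
    (h₂ : a₂.Coprime m) (e : ℕ) : ∃ (C : ℝ) (X₀ : ℕ), 0 < C ∧ ∀ X : ℕ, X₀ ≤ X →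
      ∑ n ∈ (Icc 1 X).filter (fun n => n ≡ a₁ + a₂ [MOD m]),
        ‖binPairs m a₁ a₂ X n - ((binMain m n * n : ℝ) : ℂ)‖ ^ 2 ≤
          C * ((X : ℝ) ^ 3 / Real.log X ^ e) := by
  obtain ⟨b, hb⟩ : ∃ b, b = e + 10 := ⟨_, rfl⟩
  obtain ⟨C₁, hC₁, hmin⟩ := ThreePrimesClasses.exists_class_minor b
  obtain ⟨C₂, hC₂, hmaj⟩ := ThreePrimesClasses.exists_class_major (2 * b + 1) (9 * b + 3)
  obtain ⟨K, hK, hpow⟩ := ThreePrimes.exists_log_pow_le (6 * b + 2)
  obtain ⟨K', hK', hpow'⟩ := ThreePrimes.exists_log_pow_le (e + 3)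
  obtain ⟨Z₁, hZ₁⟩ : ∃ Z₁ : ℝ, Z₁ = 2 * (m : ℝ) ^ 2 * ∑' q : ℕ, (q : ℝ) ^ (-(5 / 4) : ℝ) :=
    ⟨_, rfl⟩
  have hZ₁0 : 0 ≤ Z₁ := hZ₁ ▸ mul_nonneg (by positivity) (tsum_nonneg fun q => by positivity)
  obtain ⟨Q, hQ⟩ : ∃ Q : ℝ, Q = (m : ℝ) ^ 2 * pairConst := ⟨_, rfl⟩
  have hQ0 : 0 ≤ Q := hQ ▸ mul_nonneg (sq_nonneg _) AlmostGoldbach.pairConst_nonneg
  refine ⟨5 * (10 * C₁ ^ 2 + (2000 * C₂) ^ 2 + (8 * Z₁) ^ 2 + 4 * Q ^ 2 +
    4 * Q ^ 2 * (K' + 1)), max (max ⌈(2 * K + 1) ^ 2⌉₊ 8) ⌈Real.exp ((m : ℝ) ^ 2)⌉₊,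
    by positivity, fun X hX => ?_⟩
  have hX8 : 8 ≤ X := le_trans (le_trans (le_max_right _ _) (le_max_left _ _)) hX
  have hX1 : (1 : ℝ) ≤ X := by exact_mod_cast (show 1 ≤ X by omega)
  obtain ⟨l, hl⟩ : ∃ l, l = Real.log X := ⟨_, rfl⟩
  have hlm : (m : ℝ) ^ 2 ≤ l := by
    rw [hl, Real.le_log_iff_exp_le (by linarith)]
    exact (Nat.le_ceil _).trans (Nat.cast_le.2 (le_trans (le_max_right _ _) hX))
  have hl2 : 2 ≤ l := by
    rw [hl, Real.le_log_iff_exp_le (by linarith), show (2 : ℝ) = ((2 : ℕ) : ℝ) * 1 by norm_num,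
      Real.exp_nat_mul]
    have h8 : (8 : ℝ) ≤ X := by exact_mod_cast hX8
    refine le_trans ?_ h8
    nlinarith [Real.exp_pos 1, Real.exp_one_lt_d9]
  have hl1 : 1 ≤ l := by linarith
  have hl0 : 0 < l := by linarith
  rw [← hl]
  have hm1 : (1 : ℝ) ≤ m := Nat.one_le_cast.2 hm
  have hml : (m : ℝ) ≤ l := le_trans (le_self_pow₀ hm1 two_ne_zero) hlm
  obtain ⟨R, hR⟩ : ∃ R, R = l ^ (2 * b) := ⟨_, rfl⟩
  have hR1 : 1 ≤ R := hR ▸ one_le_pow₀ hl1
  have hR3 : 2 * R * ((l * R) * (l * R)) < X := by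
    have h1 : (2 * K + 1) ^ 2 ≤ (X : ℝ) := (Nat.le_ceil _).trans
      (Nat.cast_le.2 (le_trans (le_trans (le_max_left _ _) (le_max_left _ _)) hX))
    have h2 : 2 * K < √(X : ℝ) := by
      rw [Real.lt_sqrt (by positivity)]
      nlinarith
    rw [show 2 * R * (l * R * (l * R)) = 2 * (R ^ 3 * l ^ 2) by ring, hR, ← pow_mul, ← pow_add,
      show 2 * b * 3 + 2 = 6 * b + 2 by ring]
    calc 2 * l ^ (6 * b + 2) ≤ 2 * K * √(X : ℝ) := by
          rw [mul_assoc]
          exact mul_le_mul_of_nonneg_left (hl ▸ hpow X hX1) two_pos.le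
      _ < √(X : ℝ) * √(X : ℝ) := mul_lt_mul_of_pos_right h2 (Real.sqrt_pos.2 (by linarith))
      _ = X := Real.mul_self_sqrt (Nat.cast_nonneg X)
  have hRX : R ≤ X := by
    have h4 : 1 ≤ (l * R) * (l * R) :=
      one_le_mul_of_one_le_of_one_le (one_le_mul_of_one_le_of_one_le hl1 hR1)
        (one_le_mul_of_one_le_of_one_le hl1 hR1)
    have := le_mul_of_one_le_right (show 0 ≤ 2 * R by linarith) h4
    linarith
  obtain ⟨P, hP⟩ : ∃ P, P = m * ⌊R⌋₊ := ⟨_, rfl⟩
  have hPR : (P : ℝ) ≤ m * R := by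
    rw [hP, Nat.cast_mul]
    exact mul_le_mul_of_nonneg_left (Nat.floor_le (by linarith)) (Nat.cast_nonneg m)
  have hPlR : (P : ℝ) ≤ l * R := hPR.trans (mul_le_mul_of_nonneg_right hml (by linarith))
  have hRP : R ≤ ((P + 1 : ℕ) : ℝ) := by
    refine (Nat.lt_floor_add_one R).le.trans ?_
    exact_mod_cast Nat.add_le_add_right (hP ▸ Nat.le_mul_of_pos_left _ hm) 1
  obtain ⟨M, hM⟩ : ∃ M, M = 3 * X := ⟨_, rfl⟩
  have : NeZero M := ⟨by omega⟩
  have hM' : (M : ℝ) = 3 * X := by rw [hM]; push_cast; ring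
  have hM0 : (0 : ℝ) < M := Nat.cast_pos.2 (NeZero.pos M)
  have hlogM : 1 + Real.log M ≤ 3 * l := by
    rw [hM', Real.log_mul (by norm_num) (by linarith), ← hl]
    have : Real.log 3 ≤ 2 := by
      rw [Real.log_le_iff_le_exp (by norm_num)]
      linarith [Real.add_one_le_exp 2]
    linarith
  obtain ⟨δ, hδ⟩ : ∃ δ, δ = R / X := ⟨_, rfl⟩
  have hδ0 : 0 < δ := by rw [hδ]; positivity
  have hP0 : 0 < P := hP ▸ Nat.mul_pos hm (Nat.floor_pos.2 hR1)
  have hdisj : ((arcCentres P : Finset _) : Set (Σ _ : ℕ, ℕ)).PairwiseDisjoint (arc M δ) := by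
    intro z hz w hw hne
    rw [Function.onFun, disjoint_left]
    intro h h1 h2
    rw [arc, mem_filter] at h1 h2
    have h3 := (ThreePrimes.inv_mul_le_nearDist_centre hz hw hne).trans
      ((ThreePrimes.nearDist_sub_sub_le _ _ _).trans (add_le_add h1.2 h2.2))
    have hP' : 0 < (P : ℝ) := Nat.cast_pos.2 hP0
    rw [hδ, div_le_iff₀ (by positivity)] at h3
    have h4 : (R / X + R / X) * ((P : ℝ) * P) ≤ (R / X + R / X) * (l * R * (l * R)) :=
      mul_le_mul_of_nonneg_left (mul_le_mul hPlR hPlR hP'.le (by positivity)) (by positivity)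
    have h5 : (R / X + R / X) * (l * R * (l * R)) < 1 := by
      rw [show (R / X + R / X) * (l * R * (l * R)) = 2 * R * (l * R * (l * R)) / X by ring,
        div_lt_one (by linarith)]
      exact hR3
    linarith
  obtain ⟨minor, hminor⟩ : ∃ s, s = (range M) \ (arcCentres P).biUnion (arc M δ) := ⟨_, rfl⟩
  obtain ⟨W, hW⟩ : ∃ W : ℕ → ℂ, W = fun n : ℕ => ∑ h ∈ minor,
      classTwist m a₁ X ((h : ℝ) / M) * classTwist m a₂ X ((h : ℝ) / M) *
        eAdd (-(n * ((h : ℝ) / M))) :=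
    ⟨_, rfl⟩
  obtain ⟨E, hE⟩ : ∃ E : ℝ, E = (X : ℝ) ^ 3 / l ^ e := ⟨_, rfl⟩
  rw [← hE]
  have hE0 : 0 ≤ E := by rw [hE]; positivity
  obtain ⟨S₀, hS₀⟩ : ∃ S₀, S₀ = (Icc 1 X).filter (fun n => n ≡ a₁ + a₂ [MOD m]) := ⟨_, rfl⟩
  rw [← hS₀]
  have hsub : S₀ ⊆ Icc 1 X := hS₀ ▸ filter_subset _ _
  -- the minor arcs in mean square
  have p1 : ∑ n ∈ S₀, (‖W n‖ / M) ^ 2 ≤ 10 * C₁ ^ 2 * E := by
    simp only [div_pow, ← sum_div]
    rw [div_le_iff₀ (by positivity)]
    refine (sum_le_sum_of_subset_of_nonneg (t := range M) (fun n hn => ?_)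
      fun n _ _ => sq_nonneg _).trans ?_
    · have := mem_Icc.1 (hsub hn)
      rw [mem_range]
      omega
    rw [hW]
    simp only
    rw [AlmostGoldbach.sum_norm_sq_coeff (NeZero.pos M) minor (hminor ▸ sdiff_subset)
      fun h : ℕ => classTwist m a₁ X ((h : ℝ) / M) * classTwist m a₂ X ((h : ℝ) / M)]
    obtain ⟨G, hG⟩ : ∃ G, G = C₁ * ((X : ℝ) * l ^ 4 / l ^ b) := ⟨_, rfl⟩
    refine (mul_le_mul_of_nonneg_left (show ∑ h ∈ minor,
      ‖classTwist m a₁ X ((h : ℝ) / M) * classTwist m a₂ X ((h : ℝ) / M)‖ ^ 2 ≤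
      G ^ 2 * (M * (6 * X * l)) from (sum_le_sum (g := fun h : ℕ =>
        G ^ 2 * ‖classTwist m a₂ X ((h : ℝ) / M)‖ ^ 2) fun h hh => ?_).trans ?_) hM0.le).trans ?_
    · rw [hminor, mem_sdiff, mem_biUnion] at hh
      rw [norm_mul, mul_pow]
      refine mul_le_mul_of_nonneg_right (pow_le_pow_left₀ (norm_nonneg _) ?_ 2) (sq_nonneg _)
      have h0 := hmin m a₁ X ((h : ℝ) / M) hm (hl ▸ hl1) (hl ▸ hR ▸ hRX) fun z hz => ?_
      · rwa [← hl, ← hG] at h0
      · rw [← hl, ← hR, ← hP] at hz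
        rw [← hl, ← hR, ← hδ]
        by_contra hle
        exact hh.2 ⟨z, hz, mem_filter.2 ⟨hh.1, not_lt.1 hle⟩⟩
    · rw [← mul_sum]
      refine mul_le_mul_of_nonneg_left ?_ (sq_nonneg _)
      exact (sum_le_sum_of_subset_of_nonneg (hminor ▸ sdiff_subset)
        fun i _ _ => sq_nonneg _).trans
          (hl ▸ ThreePrimesClasses.sum_norm_sq_classTwist_le (show X < M by omega))
    · have h1 : l ^ 9 / (l ^ b) ^ 2 ≤ 1 / l ^ e := by
        rw [div_le_div_iff₀ (by positivity) (by positivity), one_mul, ← pow_mul, ← pow_add]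
        exact pow_le_pow_right₀ hl1 (by omega)
      calc (M : ℝ) * (G ^ 2 * (M * (6 * X * l)))
          = 6 * C₁ ^ 2 * ((X : ℝ) ^ 3 * (l ^ 9 / (l ^ b) ^ 2)) * (M : ℝ) ^ 2 := by rw [hG]; ring
        _ ≤ 10 * C₁ ^ 2 * ((X : ℝ) ^ 3 * (1 / l ^ e)) * (M : ℝ) ^ 2 := by
            refine mul_le_mul_of_nonneg_right (mul_le_mul ?_ (mul_le_mul_of_nonneg_left h1
              (by positivity)) (by positivity) (by positivity)) (sq_nonneg _)
            linarith [sq_nonneg C₁]
        _ = _ := by rw [hE]; ring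
  -- the pointwise bound
  have p2 : ∀ n ∈ S₀, ‖binPairs m a₁ a₂ X n - ((binMain m n * n : ℝ) : ℂ)‖ ≤
      ‖W n‖ / M + 2000 * C₂ * (X / l ^ (b + 1)) + 8 * Z₁ * (X * l ^ 2 / l ^ b) +
        Q * n.divisors.card * (X * ((P + 1 : ℕ) : ℝ) ^ (-(1 / 4) : ℝ)) +
        Q * n.divisors.card := by
    intro n hn
    rw [hS₀, mem_filter, mem_Icc] at hn
    obtain ⟨hn, hmod⟩ := hn
    have hn0 : n ≠ 0 := by omega
    obtain ⟨F, hF⟩ : ∃ F : ℕ → ℂ, F = fun h : ℕ =>
        classTwist m a₁ X ((h : ℝ) / M) * classTwist m a₂ X ((h : ℝ) / M) *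
          eAdd (-(n * ((h : ℝ) / M))) := ⟨_, rfl⟩
    obtain ⟨c, hc⟩ : ∃ c : (Σ _ : ℕ, ℕ) → ℂ, c = fun z =>
        classFactor m a₁ z.1 z.2 * classFactor m a₂ z.1 z.2 * eAdd (-(n * centre z)) := ⟨_, rfl⟩
    have htotal : ∑ h ∈ range M, F h = M * binPairs m a₁ a₂ X n := by
      rw [binPairs, ← sum_pair_grid _ _ (show 3 * X ≤ M by omega) hn.2, hF]
      rfl
    have hdecomp : ∑ h ∈ range M, F h =
        W n + ∑ z ∈ arcCentres P, ∑ h ∈ arc M δ z, F h := by
      rw [← sum_biUnion hdisj, show W n = ∑ h ∈ minor, F h by rw [hW, hF], hminor, sum_sdiff]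
      exact biUnion_subset.2 fun z _ => filter_subset _ _
    have q2 : ∀ z ∈ arcCentres P, ∀ h ∈ arc M δ z,
        ‖F h - c z * mainPair X n ((h : ℝ) / M + -centre z)‖ ≤
          12 * X * (9 * C₂ * (X / l ^ (9 * b + 3)) * R) := by
      rintro ⟨q, r⟩ hz h hh
      rw [ThreePrimes.mem_arcCentres] at hz
      obtain ⟨⟨hq1, hqP⟩, -, hcop⟩ := hz
      simp only at hq1 hqP hcop
      rw [arc, mem_filter, nearDist] at hh
      obtain ⟨k, hk⟩ : ∃ k, k = round ((h : ℝ) / M - centre ⟨q, r⟩) := ⟨_, rfl⟩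
      obtain ⟨β, hβ⟩ : ∃ β, β = (h : ℝ) / M - centre ⟨q, r⟩ - k := ⟨_, rfl⟩
      rw [← hk, ← hβ] at hh
      have hper : ∀ a, classTwist m a X ((h : ℝ) / M) = classTwist m a X ((r : ℝ) / q + β) := by
        intro a
        simp only [classTwist, trigSum]
        refine sum_congr rfl fun i _ => congrArg _ ?_
        rw [← ThreePrimes.eAdd_add_intCast ((i : ℝ) * ((r : ℝ) / q + β)) ((i : ℤ) * k), hβ, centre]
        push_cast
        ring_nf
      have hqm : ((q * m : ℕ) : ℝ) ≤ l ^ (2 * b + 1) := by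
        push_cast
        calc (q : ℝ) * m ≤ m * R * m :=
              mul_le_mul_of_nonneg_right ((Nat.cast_le.2 hqP).trans hPR) (Nat.cast_nonneg m)
          _ = (m : ℝ) ^ 2 * R := by ring
          _ ≤ l * R := mul_le_mul_of_nonneg_right hlm (by linarith)
          _ = _ := by rw [hR, pow_succ']
      have hβR : 1 + 2 * π * |β| * X ≤ 9 * R := by
        have h1 : |β| * X ≤ R := by
          rw [← le_div_iff₀ (by linarith), ← hδ]
          exact hh.2
        have := mul_le_mul_of_nonneg_left h1 (show (0 : ℝ) ≤ 2 * π by positivity)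
        have := mul_le_mul_of_nonneg_right Real.pi_le_four (show (0 : ℝ) ≤ R by linarith)
        linarith
      have happ : ∀ a, ‖classTwist m a X ((h : ℝ) / M) - classFactor m a q r * geomSum X β‖ ≤
          9 * C₂ * (X / l ^ (9 * b + 3)) * R := by
        intro a
        rw [hper a]
        refine (hl ▸ hmaj m a X q r β hm (by omega) (by omega) (hl ▸ hqm)).trans ?_
        calc C₂ * ((X : ℝ) / l ^ (9 * b + 3)) * (1 + 2 * π * |β| * X)
            ≤ C₂ * ((X : ℝ) / l ^ (9 * b + 3)) * (9 * R) :=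
              mul_le_mul_of_nonneg_left hβR (by positivity)
          _ = _ := by ring
      rw [hF, hc]
      simp only
      rw [mainPair, ← sub_eq_add_neg, ← ThreePrimes.geomSum_sub_intCast X _ k, ← hβ]
      have e1 : eAdd (-((n : ℝ) * centre ⟨q, r⟩)) *
          eAdd (-(n * ((h : ℝ) / M - centre ⟨q, r⟩))) = eAdd (-(n * ((h : ℝ) / M))) := by
        rw [← ThreePrimes.eAdd_add]
        ring_nf
      rw [mul_mul_mul_comm _ (eAdd (-((n : ℝ) * centre ⟨q, r⟩))), e1, ← sub_mul, norm_mul,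
        ThreePrimes.norm_eAdd, mul_one, sq (geomSum X β)]
      have hy : ‖classFactor m a₁ q r * geomSum X β‖ ≤ 6 * X := by
        rw [norm_mul]
        refine (mul_le_of_le_one_left (norm_nonneg _)
          (ThreePrimesClasses.norm_classFactor_le_one m a₁ q r)).trans ?_
        refine (norm_sum_le _ _).trans ?_
        simp [ThreePrimes.norm_eAdd]
        linarith
      rw [show classTwist m a₁ X ((h : ℝ) / M) * classTwist m a₂ X ((h : ℝ) / M) -
          classFactor m a₁ q r * classFactor m a₂ q r * (geomSum X β * geomSum X β) =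
          (classTwist m a₁ X ((h : ℝ) / M) - classFactor m a₁ q r * geomSum X β) *
              classTwist m a₂ X ((h : ℝ) / M) +
            classFactor m a₁ q r * geomSum X β *
              (classTwist m a₂ X ((h : ℝ) / M) - classFactor m a₂ q r * geomSum X β) by ring]
      refine (norm_add_le _ _).trans ?_
      rw [norm_mul, norm_mul (classFactor m a₁ q r * geomSum X β)]
      refine (add_le_add (mul_le_mul (happ a₁) (ThreePrimesClasses.norm_classTwist_le _ _ _ _)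
        (norm_nonneg _) (by positivity))
        (mul_le_mul hy (happ a₂) (norm_nonneg _) (by positivity))).trans (le_of_eq ?_)
      ring
    have hpairs : ((arcCentres P).card : ℝ) ≤ l * R ^ 2 := by
      have h1 : (arcCentres P).card ≤ P * P := by
        rw [arcCentres, card_sigma]
        refine (sum_le_card_nsmul _ _ P fun q hq => ?_).trans (le_of_eq ?_)
        · rw [ThreePrimes.card_unitResidues]
          exact (Nat.totient_le q).trans (mem_Icc.1 hq).2
        · simp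
      refine (Nat.cast_le.2 h1).trans ?_
      push_cast
      calc (P : ℝ) * P ≤ m * R * (m * R) := mul_le_mul hPR hPR (Nat.cast_nonneg P) (by positivity)
        _ = (m : ℝ) ^ 2 * R ^ 2 := by ring
        _ ≤ _ := mul_le_mul_of_nonneg_right hlm (by positivity)
    have q3 : ‖∑ z ∈ arcCentres P, ∑ h ∈ arc M δ z,
        (F h - c z * mainPair X n ((h : ℝ) / M + -centre z))‖ ≤
          l * R ^ 2 * (41 * R * l) * (12 * X * (9 * C₂ * (X / l ^ (9 * b + 3)) * R)) := by
      refine (norm_sum_le _ _).trans ((sum_le_card_nsmul _ _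
        (41 * R * l * (12 * X * (9 * C₂ * (X / l ^ (9 * b + 3)) * R))) fun z hz => ?_).trans ?_)
      · refine (norm_sum_le _ _).trans ((sum_le_card_nsmul _ _ _ (q2 z hz)).trans ?_)
        rw [nsmul_eq_mul]
        refine mul_le_mul_of_nonneg_right ((ThreePrimes.card_arc_le hδ0 z).trans ?_)
          (by positivity)
        have h1 : 4 * (M : ℝ) * δ * (1 + Real.log M) ≤ 12 * R * (3 * l) := by
          refine le_trans (le_of_eq ?_) (mul_le_mul_of_nonneg_left hlogM (by positivity))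
          rw [hM', hδ]
          field_simp
          ring
        have h2 : 1 * 1 ≤ R * l := mul_le_mul hR1 hl1 zero_le_one (by linarith)
        linarith
      · rw [nsmul_eq_mul, mul_assoc (l * R ^ 2)]
        exact mul_le_mul_of_nonneg_right hpairs (by positivity)
    have hcsum : ∑ z ∈ arcCentres P, ‖c z‖ ≤ Z₁ * √(P : ℝ) := by
      rw [arcCentres, sum_sigma, hZ₁, mul_assoc, mul_comm (∑' q : ℕ, _), ← mul_assoc]
      refine le_trans (sum_le_sum (g := fun q : ℕ =>
        2 * (m : ℝ) ^ 2 * √(P : ℝ) * (q : ℝ) ^ (-(5 / 4) : ℝ)) fun q hq => ?_) ?_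
      · rw [mem_Icc] at hq
        refine (sum_le_card_nsmul _ _ ((m : ℝ) ^ 2 / (q.totient : ℝ) ^ 2) fun r hr => ?_).trans ?_
        · rw [unitResidues, mem_filter] at hr
          rw [hc, norm_mul, ThreePrimes.norm_eAdd, mul_one, norm_mul, ← div_pow, sq]
          exact mul_le_mul (ThreePrimesClasses.norm_classFactor_le hm hq.1 hr.2 h₁)
            (ThreePrimesClasses.norm_classFactor_le hm hq.1 hr.2 h₂) (norm_nonneg _)
            (by positivity)
        · rw [ThreePrimes.card_unitResidues, nsmul_eq_mul]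
          refine le_trans (le_of_eq ?_) (le_of_le_of_eq (mul_le_mul_of_nonneg_left
            (AlmostGoldbach.inv_totient_le hq.1 hq.2) (sq_nonneg (m : ℝ))) (by ring))
          have : (q.totient : ℝ) ≠ 0 := Nat.cast_ne_zero.2 (Nat.totient_pos.2 hq.1).ne'
          field_simp
      · rw [← mul_sum]
        exact mul_le_mul_of_nonneg_left (Summable.sum_le_tsum _ (fun i _ => by positivity)
          (Real.summable_nat_rpow.2 (by norm_num))) (by positivity)
    have q4 : ∀ z ∈ arcCentres P, ‖∑ h ∈ range M \ arc M δ z,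
        mainPair X n ((h : ℝ) / M + -centre z)‖ ≤ 24 * X ^ 2 * l / R := by
      intro z _
      obtain ⟨Z, hZ⟩ : ∃ Z, Z = 1 / (2 * δ) := ⟨_, rfl⟩
      have hZ0 : 0 < Z := by rw [hZ]; positivity
      refine (norm_sum_le _ _).trans ((sum_le_sum (g := fun h : ℕ =>
        Z * clip Z ((h : ℝ) / M - centre z)) fun h hh => ?_).trans ?_)
      · rw [mem_sdiff, arc, mem_filter, not_and, not_le] at hh
        have hd := hh.2 hh.1
        rw [← sub_eq_add_neg, mainPair, norm_mul, ThreePrimes.norm_eAdd, mul_one, norm_pow, sq]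
        have h1 := ThreePrimes.norm_geom_le ((h : ℝ) / M - centre z) 0 X
        have h2 : clip ((X - 0 : ℕ) : ℝ) ((h : ℝ) / M - centre z) ≤
            1 / (2 * nearDist ((h : ℝ) / M - centre z)) :=
          ThreePrimes.clip_le_inv (hδ0.trans hd) le_rfl
        have h3 : 1 / (2 * nearDist ((h : ℝ) / M - centre z)) ≤ Z :=
          hZ ▸ one_div_le_one_div_of_le (by positivity) (by linarith)
        have h4 : clip Z ((h : ℝ) / M - centre z) =
            1 / (2 * nearDist ((h : ℝ) / M - centre z)) := by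
          rw [clip, if_neg (by linarith), min_eq_right h3]
        rw [h4]
        have h5 : ‖geomSum X ((h : ℝ) / M - centre z)‖ ≤
            1 / (2 * nearDist ((h : ℝ) / M - centre z)) := h1.trans h2
        exact mul_le_mul (h5.trans h3) h5 (norm_nonneg _) hZ0.le
      · rw [← mul_sum]
        refine (mul_le_mul_of_nonneg_left ((sum_le_sum_of_subset_of_nonneg sdiff_subset
          fun i _ _ => ThreePrimes.clip_nonneg hZ0.le _).trans
            (ThreePrimes.sum_clip_grid_le (centre z) hZ0.le)) hZ0.le).trans ?_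
        have hZN : Z = X / (2 * R) := by
          rw [hZ, hδ]
          field_simp
        rw [hZN]
        calc (X : ℝ) / (2 * R) * (5 * (X / (2 * R)) + 2 * M * (1 + Real.log M))
            ≤ (X : ℝ) / (2 * R) * (5 * (X / 2) * l + 2 * (3 * X) * (3 * l)) := by
              refine mul_le_mul_of_nonneg_left (add_le_add ?_ ?_) (by positivity)
              · have h2 : (X : ℝ) / (2 * R) ≤ X / 2 :=
                  div_le_div_of_nonneg_left (Nat.cast_nonneg X) two_pos (by linarith)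
                calc 5 * ((X : ℝ) / (2 * R)) ≤ 5 * (X / 2) * 1 := by linarith
                  _ ≤ _ := mul_le_mul_of_nonneg_left hl1 (by positivity)
              · rw [← hM']
                exact mul_le_mul_of_nonneg_left hlogM (by positivity)
          _ = 41 / 4 * ((X : ℝ) ^ 2 * l / R) := by field_simp; ring
          _ ≤ _ := by
              have : 0 ≤ (X : ℝ) ^ 2 * l / R := by positivity
              rw [show 24 * (X : ℝ) ^ 2 * l / R = 24 * ((X : ℝ) ^ 2 * l / R) by ring]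
              linarith
    have q5 : ‖∑ z ∈ arcCentres P, c z *
        ∑ h ∈ range M \ arc M δ z, mainPair X n ((h : ℝ) / M + -centre z)‖ ≤
          Z₁ * √(P : ℝ) * (24 * X ^ 2 * l / R) := by
      refine (norm_sum_le _ _).trans ((sum_le_sum fun z hz => ?_).trans
        ((sum_mul _ _ _).ge.trans (mul_le_mul_of_nonneg_right hcsum (by positivity))))
      rw [norm_mul]
      exact mul_le_mul_of_nonneg_left (q4 z hz) (norm_nonneg _)
    have hcval : ∑ z ∈ arcCentres P, c z = ∑ q ∈ Icc 1 P, binTerm m a₁ a₂ n q := by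
      rw [arcCentres, sum_sigma, hc]
      rfl
    obtain ⟨S, hS⟩ : ∃ S, S = ∑ q ∈ Icc 1 P, binTerm m a₁ a₂ n q := ⟨_, rfl⟩
    have hJ := AlmostGoldbach.pairSum_one hn.1 hn.2
    have hident : ∑ h ∈ range M, F h -
        (M : ℂ) * pairSum (fun _ => 1) X n * ∑ z ∈ arcCentres P, c z =
        W n + ∑ z ∈ arcCentres P, ∑ h ∈ arc M δ z,
            (F h - c z * mainPair X n ((h : ℝ) / M + -centre z)) -
          ∑ z ∈ arcCentres P, c z *
            ∑ h ∈ range M \ arc M δ z, mainPair X n ((h : ℝ) / M + -centre z) := by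
      have h1 : ∀ z ∈ arcCentres P, (M : ℂ) * pairSum (fun _ => 1) X n * c z =
          ∑ h ∈ arc M δ z, c z * mainPair X n ((h : ℝ) / M + -centre z) +
            c z * ∑ h ∈ range M \ arc M δ z, mainPair X n ((h : ℝ) / M + -centre z) := by
        intro z _
        rw [← mul_sum, ← mul_add, add_comm (∑ h ∈ arc M δ z, _), sum_sdiff
          (show arc M δ z ⊆ range M from filter_subset _ _),
          AlmostGoldbach.sum_mainPair_grid (show 3 * X ≤ M by omega) hn.2]
        ring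
      rw [mul_sum, sum_congr rfl h1, sum_add_distrib, hdecomp]
      simp only [sum_sub_distrib]
      ring
    have hmain : ‖binPairs m a₁ a₂ X n - (((n : ℝ) - 1 : ℝ) : ℂ) * S‖ ≤
        ‖W n‖ / M + 2000 * C₂ * (X / l ^ (b + 1)) + 8 * Z₁ * (X * l ^ 2 / l ^ b) := by
      refine le_of_mul_le_mul_left ?_ hM0
      rw [← Complex.norm_natCast M, ← norm_mul, mul_sub, ← hJ, ← mul_assoc,
        hS, ← hcval, ← htotal, hident, Complex.norm_natCast]
      refine (norm_sub_le _ _).trans ((add_le_add ((norm_add_le _ _).trans (add_le_add le_rfl q3))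
        q5).trans ?_)
      rw [mul_add, mul_add, mul_div_cancel₀ _ hM0.ne']
      refine add_le_add (add_le_add le_rfl ?_) ?_
      · rw [hR, hM']
        calc l * (l ^ (2 * b)) ^ 2 * (41 * l ^ (2 * b) * l) *
              (12 * X * (9 * C₂ * (X / l ^ (9 * b + 3)) * l ^ (2 * b)))
            = 4428 * C₂ * (X : ℝ) ^ 2 * ((l ^ (2 * b)) ^ 4 * l ^ 2 / l ^ (9 * b + 3)) := by ring
          _ = 4428 * C₂ * (X : ℝ) ^ 2 * (1 / l ^ (b + 1)) := by
              congr 1
              rw [div_eq_div_iff (by positivity) (by positivity), one_mul, ← pow_mul, ← pow_add,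
                ← pow_add]
              congr 1
              ring
          _ ≤ 6000 * C₂ * (X : ℝ) ^ 2 * (1 / l ^ (b + 1)) := by gcongr; norm_num
          _ = _ := by ring
      · have h1 : √(P : ℝ) ≤ l * l ^ b := by
          refine (Real.sqrt_le_sqrt (hPlR.trans (mul_le_mul_of_nonneg_right
            (le_self_pow₀ hl1 two_ne_zero) (by linarith)))).trans (le_of_eq ?_)
          rw [hR, pow_mul', ← mul_pow, Real.sqrt_sq (by positivity)]
        rw [hM']
        calc Z₁ * √(P : ℝ) * (24 * (X : ℝ) ^ 2 * l / R)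
            ≤ Z₁ * (l * l ^ b) * (24 * (X : ℝ) ^ 2 * l / R) := by gcongr
          _ = _ := by rw [hR, pow_mul']; field_simp; ring
    have hst := norm_sum_binTerm_sub_le hm h₁ h₂ hn0 P hmod
    rw [← hS, ← hQ] at hst
    rw [show binPairs m a₁ a₂ X n - ((binMain m n * n : ℝ) : ℂ) =
      (binPairs m a₁ a₂ X n - (((n : ℝ) - 1 : ℝ) : ℂ) * S) +
        ((((n : ℝ) - 1 : ℝ) : ℂ) * (S - (binMain m n : ℂ)) - (binMain m n : ℂ)) by
      push_cast; ring]
    refine (norm_add_le _ _).trans ((add_le_add hmain ((norm_sub_le _ _).trans (add_le_add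
      (b := (X : ℝ) * (Q * n.divisors.card * ((P + 1 : ℕ) : ℝ) ^ (-(1 / 4) : ℝ)))
      (d := Q * n.divisors.card) ?_ ?_))).trans ?_)
    · rw [norm_mul, Complex.norm_real, Real.norm_eq_abs]
      refine mul_le_mul ?_ hst (norm_nonneg _) (Nat.cast_nonneg X)
      have h1 : (1 : ℝ) ≤ n := by exact_mod_cast hn.1
      have h2 : (n : ℝ) ≤ X := Nat.cast_le.2 hn.2
      rw [abs_of_nonneg (by linarith)]
      linarith
    · rw [Complex.norm_real, Real.norm_eq_abs]
      refine (abs_binMain_le hm hn0).trans ?_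
      rw [hQ, mul_assoc]
      exact mul_le_mul_of_nonneg_right (le_self_pow₀ hm1 two_ne_zero)
        (mul_nonneg AlmostGoldbach.pairConst_nonneg (Nat.cast_nonneg _))
    · linarith
  -- assembly
  refine (sum_le_sum fun n hn => (pow_le_pow_left₀ (norm_nonneg _) (p2 n hn) 2).trans
    (AlmostGoldbach.sum_sq_five_le _ _ _ _ _)).trans ?_
  rw [← mul_sum, sum_add_distrib, sum_add_distrib, sum_add_distrib, sum_add_distrib]
  have hcard : (S₀.card : ℝ) ≤ X := by
    refine (Nat.cast_le.2 (card_le_card hsub)).trans (le_of_eq ?_)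
    rw [Nat.card_Icc, Nat.add_sub_cancel]
  have s2 : ∑ _n ∈ S₀, (2000 * C₂ * (X / l ^ (b + 1))) ^ 2 ≤ (2000 * C₂) ^ 2 * E := by
    rw [sum_const, nsmul_eq_mul, hE]
    calc (S₀.card : ℝ) * (2000 * C₂ * (X / l ^ (b + 1))) ^ 2
        ≤ (X : ℝ) * (2000 * C₂ * (X / l ^ (b + 1))) ^ 2 :=
          mul_le_mul_of_nonneg_right hcard (sq_nonneg _)
      _ = (2000 * C₂) ^ 2 * ((X : ℝ) ^ 3 / (l ^ (b + 1)) ^ 2) := by ring
      _ ≤ _ := by
          refine mul_le_mul_of_nonneg_left (div_le_div_of_nonneg_left (by positivity)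
            (by positivity) ?_) (sq_nonneg _)
          rw [← pow_mul]
          exact pow_le_pow_right₀ hl1 (by omega)
  have s3 : ∑ _n ∈ S₀, (8 * Z₁ * (X * l ^ 2 / l ^ b)) ^ 2 ≤ (8 * Z₁) ^ 2 * E := by
    rw [sum_const, nsmul_eq_mul, hE]
    calc (S₀.card : ℝ) * (8 * Z₁ * (X * l ^ 2 / l ^ b)) ^ 2
        ≤ (X : ℝ) * (8 * Z₁ * (X * l ^ 2 / l ^ b)) ^ 2 :=
          mul_le_mul_of_nonneg_right hcard (sq_nonneg _)
      _ = (8 * Z₁) ^ 2 * ((X : ℝ) ^ 3 * (l ^ 4 / (l ^ b) ^ 2)) := by ring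
      _ ≤ _ := by
          refine mul_le_mul_of_nonneg_left ?_ (sq_nonneg _)
          rw [div_eq_mul_one_div ((X : ℝ) ^ 3)]
          refine mul_le_mul_of_nonneg_left ?_ (by positivity)
          rw [div_le_div_iff₀ (by positivity) (by positivity), one_mul, ← pow_mul, ← pow_add]
          exact pow_le_pow_right₀ hl1 (by omega)
  have hdiv : ∑ n ∈ S₀, (n.divisors.card : ℝ) ^ 2 ≤ 4 * X * l ^ 3 := by
    refine (sum_le_sum_of_subset_of_nonneg hsub fun n _ _ => sq_nonneg _).trans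
      ((ThreePrimes.sum_card_divisors_sq_le X).trans ?_)
    rw [ThreePrimes.logOne, ← hl]
    have := pow_le_pow_left₀ (by linarith) (show 1 + l ≤ 5 / 4 * (1 + 1 / 5) * l by linarith) 3
    have h3 := mul_le_mul_of_nonneg_left this (Nat.cast_nonneg (α := ℝ) X)
    have : (0 : ℝ) ≤ (X : ℝ) * l ^ 3 := by positivity
    nlinarith
  have s4 : ∑ n ∈ S₀,
      (Q * n.divisors.card * (X * ((P + 1 : ℕ) : ℝ) ^ (-(1 / 4) : ℝ))) ^ 2 ≤
        4 * Q ^ 2 * E := by
    obtain ⟨t, ht⟩ : ∃ t : ℝ, t = ((P + 1 : ℕ) : ℝ) ^ (-(1 / 4) : ℝ) := ⟨_, rfl⟩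
    rw [← ht]
    have ht2 : t ^ 2 ≤ 1 / l ^ b := by
      rw [ht, ← Real.rpow_natCast, ← Real.rpow_mul (Nat.cast_nonneg _)]
      refine (Real.rpow_le_rpow_of_nonpos (by linarith) hRP (by norm_num)).trans (le_of_eq ?_)
      rw [hR, one_div (l ^ b), ← Real.rpow_natCast, ← Real.rpow_mul hl0.le, ← Real.rpow_natCast,
        ← Real.rpow_neg hl0.le]
      push_cast
      ring_nf
    calc ∑ n ∈ S₀, (Q * n.divisors.card * (X * t)) ^ 2
        = Q ^ 2 * (X : ℝ) ^ 2 * t ^ 2 * ∑ n ∈ S₀, (n.divisors.card : ℝ) ^ 2 := by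
          rw [mul_sum]
          exact sum_congr rfl fun n _ => by ring
      _ ≤ Q ^ 2 * (X : ℝ) ^ 2 * (1 / l ^ b) * (4 * X * l ^ 3) := by gcongr
      _ = 4 * Q ^ 2 * (X : ℝ) ^ 3 * (l ^ 3 / l ^ b) := by ring
      _ ≤ 4 * Q ^ 2 * (X : ℝ) ^ 3 * (1 / l ^ e) := by
          refine mul_le_mul_of_nonneg_left ?_ (by positivity)
          rw [div_le_div_iff₀ (by positivity) (by positivity), one_mul, ← pow_add]
          exact pow_le_pow_right₀ hl1 (by omega)
      _ = _ := by rw [hE]; ring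
  have s5 : ∑ n ∈ S₀, (Q * n.divisors.card : ℝ) ^ 2 ≤ 4 * Q ^ 2 * (K' + 1) * E := by
    have h1 : (X : ℝ) * l ^ (e + 3) ≤ (K' + 1) * (X : ℝ) ^ 3 := by
      refine (mul_le_mul_of_nonneg_left (hl ▸ hpow' X hX1) (Nat.cast_nonneg X)).trans ?_
      have h2 : √(X : ℝ) ≤ (X : ℝ) ^ 2 := by
        rw [Real.sqrt_le_left (sq_nonneg _), ← pow_mul]
        exact le_self_pow₀ hX1 (by norm_num)
      calc (X : ℝ) * (K' * √(X : ℝ)) ≤ X * ((K' + 1) * (X : ℝ) ^ 2) := by gcongr; linarith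
        _ = _ := by ring
    calc ∑ n ∈ S₀, (Q * n.divisors.card : ℝ) ^ 2
        = Q ^ 2 * ∑ n ∈ S₀, (n.divisors.card : ℝ) ^ 2 := by
          rw [mul_sum]
          exact sum_congr rfl fun n _ => by ring
      _ ≤ Q ^ 2 * (4 * X * l ^ 3) := by gcongr
      _ = 4 * Q ^ 2 * ((X : ℝ) * l ^ (e + 3) / l ^ e) := by rw [pow_add]; field_simp
      _ ≤ 4 * Q ^ 2 * ((K' + 1) * (X : ℝ) ^ 3 / l ^ e) := by gcongr
      _ = _ := by rw [hE]; ring
  refine (mul_le_mul_of_nonneg_left (add_le_add (add_le_add (add_le_add (add_le_add p1 s2) s3) s4)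
    s5) (by norm_num)).trans (le_of_eq ?_)
  ring

end FA.BinaryClasses
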