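import Fermat.Agent.BinaryClasses.Circle
import Fermat.Agent.AlmostGoldbach.Main
import Fermat.Agent.ThreePrimesClasses.Main

/-!
# Two primes in prescribed classes for almost all numbers

The mean square for all `X`, the exceptional sets, the number of primes of one class, and the
progressions of three primes inside one class.
-/

set_option autoImplicit false

noncomputable section

namespace FA.BinaryClasses

open Finset ArithmeticFunction
open FA.ThreePrimes (powerPart)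
open FA.ThreePrimesClasses (classLambda classLog classFactor classTwist)

/-- The weights on the pairs with sum `n`. -/
def binW (m a₁ a₂ n : ℕ) : ℝ :=
  ∑ i ∈ Icc 1 (n - 1), classLambda m a₁ i * classLambda m a₂ (n - i)

/-- The number of `p ≡ a₁` with `p` and `n - p ≡ a₂` prime. -/
def binCount (m a₁ a₂ n : ℕ) : ℕ := ((Icc 1 n).filter fun p =>
  (p.Prime ∧ p ≡ a₁ [MOD m]) ∧ ((n - p).Prime ∧ n - p ≡ a₂ [MOD m])).card

theorem binPairs_cast (m a₁ a₂ : ℕ) {X n : ℕ} (hn : n ≤ X) :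
    binPairs m a₁ a₂ X n = (binW m a₁ a₂ n : ℂ) := by
  rw [binW, Complex.ofReal_sum, binPairs]
  symm
  refine sum_subset_zero_on_sdiff (Icc_subset_Icc_right (by omega)) (fun i hi => ?_) fun i hi => ?_
  · rw [mem_sdiff, mem_Icc, mem_Icc] at hi
    refine sum_eq_zero fun j hj => ?_
    rw [mem_Icc] at hj
    rw [if_neg (by omega)]
  · rw [mem_Icc] at hi
    rw [sum_eq_single (n - i), if_pos (by omega), Complex.ofReal_mul]
    · intro j _ hj
      rw [if_neg (by omega)]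
    · intro h
      exact absurd (mem_Icc.2 ⟨by omega, by omega⟩) h

/-- For an even modulus the congruence makes `n` even. -/
theorem even_of_modEq {m a₁ a₂ n : ℕ} (hm : 2 ∣ m) (h₁ : a₁.Coprime m) (h₂ : a₂.Coprime m)
    (h : n ≡ a₁ + a₂ [MOD m]) : Even n := by
  have hodd : ∀ a : ℕ, a.Coprime m → a % 2 = 1 := fun a ha =>
    Nat.odd_iff.1 (Nat.coprime_two_right.1 (ha.coprime_dvd_right hm))
  have h2 : n % 2 = (a₁ + a₂) % 2 := h.of_dvd hm
  rw [Nat.even_iff, h2, Nat.add_mod, hodd _ h₁, hodd _ h₂]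

/-- **The mean square.** -/
theorem exists_bin_mean_square {m a₁ a₂ : ℕ} (hm : 0 < m) (h₁ : a₁.Coprime m)
    (h₂ : a₂.Coprime m) (e : ℕ) : ∃ C : ℝ, 0 < C ∧ ∀ X : ℕ, 2 ≤ X →
      ∑ n ∈ (Icc 1 X).filter (fun n => n ≡ a₁ + a₂ [MOD m]),
        (binW m a₁ a₂ n - binMain m n * n) ^ 2 ≤ C * ((X : ℝ) ^ 3 / Real.log X ^ e) := by
  obtain ⟨C, X₀, hC, h⟩ := exists_bin_mean_square_large hm h₁ h₂ e
  obtain ⟨S₀, hS₀⟩ : ∃ S₀, S₀ = ∑ n ∈ (Icc 1 X₀).filter (fun n => n ≡ a₁ + a₂ [MOD m]),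
    (binW m a₁ a₂ n - binMain m n * n) ^ 2 := ⟨_, rfl⟩
  obtain ⟨L, hL⟩ : ∃ L : ℝ, L = (Real.log X₀ + 1) ^ e := ⟨_, rfl⟩
  have hS0 : 0 ≤ S₀ := hS₀ ▸ sum_nonneg fun n _ => sq_nonneg _
  have hL0 : 0 < L := hL ▸ pow_pos (by linarith [Real.log_natCast_nonneg X₀]) e
  refine ⟨C + S₀ * L, by positivity, fun X hX => ?_⟩
  have hl : 0 < Real.log X := Real.log_pos (by exact_mod_cast hX)
  obtain ⟨E, hE⟩ : ∃ E : ℝ, E = (X : ℝ) ^ 3 / Real.log X ^ e := ⟨_, rfl⟩
  rw [← hE]
  have hE0 : 0 ≤ E := by rw [hE]; positivity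
  rcases le_or_gt X₀ X with hle | hlt
  · have h1 := h X hle
    rw [← hE] at h1
    refine (le_of_eq_of_le (sum_congr rfl fun n hn => ?_) h1).trans ?_
    · rw [binPairs_cast m a₁ a₂ (mem_Icc.1 (mem_filter.1 hn).1).2, ← Complex.ofReal_sub,
        Complex.norm_real, Real.norm_eq_abs, sq_abs]
    · have : 0 ≤ S₀ * L * E := by positivity
      linarith
  · have h1 : ∑ n ∈ (Icc 1 X).filter (fun n => n ≡ a₁ + a₂ [MOD m]),
        (binW m a₁ a₂ n - binMain m n * n) ^ 2 ≤ S₀ := hS₀ ▸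
      sum_le_sum_of_subset_of_nonneg (filter_subset_filter _ (Icc_subset_Icc_right hlt.le))
        fun n _ _ => sq_nonneg _
    have h3 : 1 ≤ L * E := by
      rw [hE, mul_div_assoc', le_div_iff₀ (by positivity), one_mul]
      refine le_trans ?_ (le_mul_of_one_le_right hL0.le ?_)
      · refine hL ▸ pow_le_pow_left₀ hl.le ?_ e
        linarith [Real.log_le_log (show (0 : ℝ) < X by positivity) (Nat.cast_le.2 hlt.le :
          (X : ℝ) ≤ X₀)]
      · exact one_le_pow₀ (by exact_mod_cast (show 1 ≤ X by omega))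
    have h4 := mul_le_mul_of_nonneg_left h3 hS0
    have : 0 ≤ C * E := by positivity
    linarith

open scoped Classical in
/-- The `n ≤ X` of the class with an error above `n / (log X) ^ A`. -/
def binLargeError (m a₁ a₂ A X : ℕ) : Finset ℕ :=
  ((Icc 1 X).filter fun n => n ≡ a₁ + a₂ [MOD m]).filter fun n : ℕ =>
    (n : ℝ) / Real.log X ^ A < |binW m a₁ a₂ n - binMain m n * n|

/-- **Few large errors.** -/
theorem exists_card_binLargeError_le {m a₁ a₂ : ℕ} (hm : 0 < m) (h₁ : a₁.Coprime m)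
    (h₂ : a₂.Coprime m) (A : ℕ) : ∃ C : ℝ, 0 < C ∧ ∀ X : ℕ, 2 ≤ X →
      ((binLargeError m a₁ a₂ A X).card : ℝ) ≤ C * ((X : ℝ) / Real.log X ^ A) := by
  classical
  obtain ⟨C, hC, h⟩ := exists_bin_mean_square hm h₁ h₂ (5 * A)
  refine ⟨C + 1, by positivity, fun X hX => ?_⟩
  have hl : 0 < Real.log X := Real.log_pos (by exact_mod_cast hX)
  obtain ⟨T, hT⟩ : ∃ T : ℝ, T = (X : ℝ) / Real.log X ^ A := ⟨_, rfl⟩
  have hT0 : 0 < T := by rw [hT]; positivity
  rw [← hT, ← card_filter_add_card_filter_not (fun n : ℕ => (n : ℝ) ≤ T)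
    (s := binLargeError m a₁ a₂ A X), Nat.cast_add, add_mul, one_mul, add_comm]
  refine add_le_add ?_ ?_
  · obtain ⟨S, hS⟩ : ∃ S, S = (binLargeError m a₁ a₂ A X).filter fun n : ℕ => ¬ (n : ℝ) ≤ T :=
      ⟨_, rfl⟩
    rw [← hS]
    have h1 : (S.card : ℝ) * (T / Real.log X ^ A) ^ 2 ≤
        ∑ n ∈ (Icc 1 X).filter (fun n => n ≡ a₁ + a₂ [MOD m]),
          (binW m a₁ a₂ n - binMain m n * n) ^ 2 := by
      refine le_trans ?_ (sum_le_sum_of_subset_of_nonneg (hS ▸ (filter_subset _ _).trans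
        (filter_subset _ _)) fun n _ _ => sq_nonneg _)
      rw [← nsmul_eq_mul]
      refine card_nsmul_le_sum _ _ _ fun n hn => ?_
      rw [hS, binLargeError, mem_filter, mem_filter, not_le] at hn
      rw [← sq_abs (binW m a₁ a₂ n - binMain m n * n)]
      exact pow_le_pow_left₀ (by positivity)
        ((div_le_div_of_nonneg_right hn.2.le (by positivity)).trans hn.1.2.le) 2
    have h2 := h1.trans (h X hX)
    rw [← le_div_iff₀ (by positivity)] at h2
    refine h2.trans (le_of_eq ?_)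
    rw [hT]
    field_simp
    ring
  · refine le_trans (Nat.cast_le.2 (card_le_card (t := Icc 1 ⌊T⌋₊) fun n hn => ?_)) ?_
    · rw [binLargeError, mem_filter, mem_filter, mem_filter, mem_Icc] at hn
      exact mem_Icc.2 ⟨hn.1.1.1.1, Nat.le_floor hn.2⟩
    · rw [Nat.card_Icc, Nat.add_sub_cancel]
      exact Nat.floor_le hT0.le

theorem binW_le (m a₁ a₂ : ℕ) {X n : ℕ} (hn : 1 ≤ n) (hnX : n ≤ X) :
    binW m a₁ a₂ n ≤
      binCount m a₁ a₂ n * Real.log n ^ 2 + 4 * √(X : ℝ) * Real.log X ^ 2 := by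
  obtain ⟨l, hl⟩ : ∃ l, l = Real.log X := ⟨_, rfl⟩
  rw [← hl]
  have hl0 : 0 ≤ l := hl ▸ Real.log_natCast_nonneg X
  have hΛ : ∀ a i : ℕ, 1 ≤ i → i ≤ n → classLambda m a i ≤ Real.log n := fun a i h1 h2 =>
    (ThreePrimesClasses.classLambda_le m a i).trans
      (vonMangoldt_le_log.trans (Real.log_le_log (Nat.cast_pos.2 h1) (Nat.cast_le.2 h2)))
  have hnl : Real.log n ≤ l := hl ▸ Real.log_le_log (Nat.cast_pos.2 hn) (Nat.cast_le.2 hnX)
  have hpp : ∑ i ∈ Icc 1 (n - 1), powerPart i ≤ 2 * √(X : ℝ) * l :=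
    (sum_le_sum_of_subset_of_nonneg (Icc_subset_Icc_right (by omega))
      fun i _ _ => ThreePrimes.powerPart_nonneg i).trans
        (hl ▸ ThreePrimes.sum_powerPart_le (show 1 ≤ X by omega))
  have hrefl : ∑ i ∈ Icc 1 (n - 1), powerPart (n - i) = ∑ i ∈ Icc 1 (n - 1), powerPart i := by
    refine sum_nbij' (fun i => n - i) (fun i => n - i) ?_ ?_ ?_ ?_ fun i _ => rfl <;>
      intro i hi <;> simp only [mem_Icc] at * <;> omega
  refine (sum_le_sum (g := fun i => (if (i.Prime ∧ i ≡ a₁ [MOD m]) ∧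
      ((n - i).Prime ∧ n - i ≡ a₂ [MOD m]) then Real.log n ^ 2 else 0) +
    (l * powerPart i + l * powerPart (n - i))) fun i hi => ?_).trans ?_
  · rw [mem_Icc] at hi
    have h1 := hΛ a₁ i hi.1 (by omega)
    have h2 := hΛ a₂ (n - i) (by omega) (by omega)
    have p1 := ThreePrimesClasses.classLambda_nonneg m a₁ i
    have p2 := ThreePrimesClasses.classLambda_nonneg m a₂ (n - i)
    have e1 := mul_nonneg hl0 (ThreePrimes.powerPart_nonneg i)
    have e2 := mul_nonneg hl0 (ThreePrimes.powerPart_nonneg (n - i))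
    by_cases hi' : classLog m a₁ i = 0
    · have h3 : classLambda m a₁ i ≤ powerPart i := by
        have := ThreePrimesClasses.classLambda_sub_le m a₁ i
        linarith
      have := mul_le_mul h3 (h2.trans hnl) p2 (ThreePrimes.powerPart_nonneg i)
      split_ifs <;> linarith [sq_nonneg (Real.log n)]
    · by_cases hj : classLog m a₂ (n - i) = 0
      · have h3 : classLambda m a₂ (n - i) ≤ powerPart (n - i) := by
          have := ThreePrimesClasses.classLambda_sub_le m a₂ (n - i)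
          linarith
        have := mul_le_mul (h1.trans hnl) h3 p2 hl0
        split_ifs <;> linarith [sq_nonneg (Real.log n)]
      · rw [if_pos ⟨ThreePrimesClasses.of_classLog_ne_zero hi',
          ThreePrimesClasses.of_classLog_ne_zero hj⟩]
        have := mul_le_mul h1 h2 p2 (Real.log_natCast_nonneg n)
        rw [← sq] at this
        linarith
  · rw [sum_add_distrib, sum_add_distrib, ← mul_sum, ← mul_sum, hrefl, sum_ite, sum_const_zero,
      add_zero, sum_const, nsmul_eq_mul]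
    refine add_le_add (mul_le_mul_of_nonneg_right (Nat.cast_le.2 (card_le_card
      (filter_subset_filter _ (Icc_subset_Icc_right (by omega))))) (sq_nonneg _)) ?_
    have := mul_le_mul_of_nonneg_left hpp hl0
    linarith

/-- The density of the pairs in the classes, up to the singular series. -/
def binRate (m : ℕ) : ℝ := (m : ℝ) / (m.totient : ℝ) ^ 2 / 8

theorem binRate_pos {m : ℕ} (hm : 0 < m) : 0 < binRate m :=
  div_pos (div_pos (Nat.cast_pos.2 hm) (pow_pos (Nat.cast_pos.2 (Nat.totient_pos.2 hm)) 2))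
    (by norm_num)

theorem binRate_le_binMain {m n : ℕ} (hn : n ≠ 0) (h : 2 ∣ m ∨ Even n) :
    4 * binRate m ≤ binMain m n := by
  rw [binRate, binMain]
  refine le_trans (le_of_eq (by ring)) (mul_le_mul_of_nonneg_left
    (half_le_binSeries hn h) (by positivity))

open scoped Classical in
/-- The even `n ≤ X` of the class with few representations. -/
def binFewPairs (m a₁ a₂ X : ℕ) : Finset ℕ :=
  (Icc 1 X).filter fun n : ℕ => n ≡ a₁ + a₂ [MOD m] ∧ Even n ∧
    (binCount m a₁ a₂ n : ℝ) * Real.log n ^ 2 < binRate m * n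

/-- **Few even numbers with few representations.** -/
theorem exists_card_binFewPairs_le {m a₁ a₂ : ℕ} (hm : 0 < m) (h₁ : a₁.Coprime m)
    (h₂ : a₂.Coprime m) (A : ℕ) : ∃ C : ℝ, 0 < C ∧ ∀ X : ℕ, 2 ≤ X →
      ((binFewPairs m a₁ a₂ X).card : ℝ) ≤ C * ((X : ℝ) / Real.log X ^ A) := by
  classical
  obtain ⟨C, hC, h⟩ := exists_card_binLargeError_le hm h₁ h₂ (A + 1)
  obtain ⟨K, hK, hpow⟩ := ThreePrimes.exists_log_pow_le (A + 3)
  obtain ⟨c, hc⟩ : ∃ c, c = binRate m := ⟨_, rfl⟩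
  have hc0 : 0 < c := hc ▸ binRate_pos hm
  obtain ⟨B, hB⟩ : ∃ B : ℝ, B = 4 * K / c + 1 / c + 1 := ⟨_, rfl⟩
  have hu : 0 ≤ 4 * K / c := by positivity
  have hv : 0 ≤ 1 / c := by positivity
  have hB1 : 1 ≤ B := by linarith
  refine ⟨C + 1 + B ^ A, by positivity, fun X hX => ?_⟩
  obtain ⟨l, hl⟩ : ∃ l, l = Real.log X := ⟨_, rfl⟩
  rw [← hl]
  have hl0 : 0 < l := hl ▸ Real.log_pos (by exact_mod_cast hX)
  obtain ⟨T, hT⟩ : ∃ T : ℝ, T = (X : ℝ) / l ^ A := ⟨_, rfl⟩
  rw [← hT]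
  have hT0 : 0 < T := by rw [hT]; positivity
  rw [add_mul, add_mul, one_mul]
  rcases le_or_gt l B with hsmall | hbig
  · refine le_trans ?_ (le_add_of_nonneg_left (by positivity))
    refine (Nat.cast_le.2
      ((card_le_card (filter_subset _ _)).trans_eq (Nat.card_Icc 1 X))).trans ?_
    rw [Nat.add_sub_cancel]
    have h1 := mul_le_mul_of_nonneg_right (pow_le_pow_left₀ hl0.le hsmall A) hT0.le
    refine le_trans (le_of_eq ?_) h1
    rw [hT]
    field_simp
  refine le_trans ?_ (le_add_of_nonneg_right (by positivity))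
  have hl1 : 1 ≤ l := by linarith
  have hsub : binFewPairs m a₁ a₂ X ⊆ Icc 1 ⌊T⌋₊ ∪ binLargeError m a₁ a₂ (A + 1) X := by
    intro n hn
    rw [binFewPairs, mem_filter, mem_Icc] at hn
    obtain ⟨⟨hn1, hnX⟩, hmod, heven, hfew⟩ := hn
    rw [mem_union, mem_Icc, binLargeError, mem_filter, mem_filter, mem_Icc, ← hl]
    rcases le_or_gt (n : ℝ) T with hle | hgt
    · exact Or.inl ⟨hn1, Nat.le_floor hle⟩
    refine Or.inr ⟨⟨⟨hn1, hnX⟩, hmod⟩, ?_⟩
    have h1 := binW_le m a₁ a₂ hn1 hnX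
    rw [← hl] at h1
    have h2 : 4 * √(X : ℝ) * l ^ 2 ≤ c * T := by
      rw [hT, mul_div_assoc', le_div_iff₀ (by positivity)]
      have hp := hl ▸ hpow X (by exact_mod_cast (show 1 ≤ X by omega))
      have hKl : 4 * K ≤ c * l := by
        rw [mul_comm c]
        exact (div_le_iff₀ hc0).1 (by linarith)
      refine le_of_mul_le_mul_right ?_ hl0
      calc 4 * √(X : ℝ) * l ^ 2 * l ^ A * l = 4 * √(X : ℝ) * l ^ (A + 3) := by ring
        _ ≤ 4 * √(X : ℝ) * (K * √(X : ℝ)) := mul_le_mul_of_nonneg_left hp (by positivity)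
        _ = X * (4 * K) := by
            rw [show 4 * √(X : ℝ) * (K * √(X : ℝ)) = √(X : ℝ) * √(X : ℝ) * (4 * K) by ring,
              Real.mul_self_sqrt (Nat.cast_nonneg X)]
        _ ≤ X * (c * l) := mul_le_mul_of_nonneg_left hKl (Nat.cast_nonneg X)
        _ = _ := by ring
    have h3 := mul_le_mul_of_nonneg_right
      (binRate_le_binMain (m := m) (n := n) (by omega) (Or.inr heven))
      (Nat.cast_nonneg (α := ℝ) n)
    rw [← hc] at h3 hfew
    have h4 : (n : ℝ) / l ^ (A + 1) ≤ c * n := by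
      rw [div_le_iff₀ (by positivity), mul_comm c, mul_assoc]
      refine le_mul_of_one_le_right (Nat.cast_nonneg n) ?_
      have h6 : 1 ≤ c * l := by
        rw [mul_comm]
        exact (div_le_iff₀ hc0).1 (by linarith)
      exact h6.trans (mul_le_mul_of_nonneg_left (le_self_pow₀ hl1 (by omega)) hc0.le)
    have h5 := neg_abs_le (binW m a₁ a₂ n - binMain m n * n)
    have h6 := mul_le_mul_of_nonneg_left hgt.le hc0.le
    have h7 : 0 ≤ c * n := by positivity
    linarith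
  refine (Nat.cast_le.2 ((card_le_card hsub).trans (card_union_le _ _))).trans ?_
  rw [Nat.cast_add, Nat.card_Icc, Nat.add_sub_cancel, add_comm]
  refine add_le_add ((h X hX).trans ?_) (Nat.floor_le hT0.le)
  rw [← hl, hT]
  refine mul_le_mul_of_nonneg_left (div_le_div_of_nonneg_left (Nat.cast_nonneg X) (by positivity)
    (pow_le_pow_right₀ hl1 (by omega))) hC.le

open scoped Classical in
/-- The even `n ≤ X` of the class that are not sums of two distinct primes of the classes. -/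
def binExceptions (m a₁ a₂ X : ℕ) : Finset ℕ :=
  (Icc 1 X).filter fun n : ℕ => n ≡ a₁ + a₂ [MOD m] ∧ Even n ∧
    ¬ ∃ p q : ℕ, (p.Prime ∧ p ≡ a₁ [MOD m]) ∧ (q.Prime ∧ q ≡ a₂ [MOD m]) ∧ p ≠ q ∧ p + q = n

/-- **Almost all numbers of the class are sums of two primes of the classes.** -/
theorem exists_card_binExceptions_le {m a₁ a₂ : ℕ} (hm : 0 < m) (h₁ : a₁.Coprime m)
    (h₂ : a₂.Coprime m) (A : ℕ) : ∃ C : ℝ, 0 < C ∧ ∀ X : ℕ, 2 ≤ X →
      ((binExceptions m a₁ a₂ X).card : ℝ) ≤ C * ((X : ℝ) / Real.log X ^ A) := by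
  classical
  obtain ⟨C, hC, h⟩ := exists_card_binFewPairs_le hm h₁ h₂ A
  obtain ⟨K, hK, hpow⟩ := ThreePrimes.exists_log_pow_le 2
  obtain ⟨K', hK', hpow'⟩ := ThreePrimes.exists_log_pow_le A
  obtain ⟨B, hB⟩ : ∃ B : ℕ, B = ⌈(K / binRate m) ^ 2⌉₊ := ⟨_, rfl⟩
  refine ⟨C + ((B : ℝ) + 1) * K', by positivity, fun X hX => ?_⟩
  have hl0 : 0 < Real.log X := Real.log_pos (by exact_mod_cast hX)
  have hX1 : (1 : ℝ) ≤ X := by exact_mod_cast (show 1 ≤ X by omega)
  have hsub : binExceptions m a₁ a₂ X ⊆ binFewPairs m a₁ a₂ X ∪ range (B + 1) := by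
    intro n hn
    rw [binExceptions, mem_filter] at hn
    obtain ⟨hnX, hmod, heven, hno⟩ := hn
    rw [mem_union, binFewPairs, mem_filter, mem_range]
    refine or_iff_not_imp_left.2 fun hnot => Nat.lt_succ_of_le ?_
    push Not at hnot
    have hcnt : binCount m a₁ a₂ n ≤ 1 := by
      refine card_le_one.2 fun x hx y hy => ?_
      rw [mem_filter, mem_Icc] at hx hy
      have hsame : ∀ z, (z ≤ n) → (z.Prime ∧ z ≡ a₁ [MOD m]) →
          ((n - z).Prime ∧ n - z ≡ a₂ [MOD m]) → z = n - z := fun z hz hz1 hz2 => by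
        by_contra hne
        exact hno ⟨z, n - z, hz1, hz2, hne, by omega⟩
      have := hsame x hx.1.2 hx.2.1 hx.2.2
      have := hsame y hy.1.2 hy.2.1 hy.2.2
      omega
    have h1 := hnot hnX hmod heven
    have hn1 : (1 : ℝ) ≤ n := by exact_mod_cast (mem_Icc.1 hnX).1
    have h2 := mul_le_mul_of_nonneg_right (Nat.cast_le (α := ℝ).2 hcnt) (sq_nonneg (Real.log n))
    rw [Nat.cast_one, one_mul] at h2
    have h4 : √(n : ℝ) ≤ K / binRate m := by
      rw [le_div_iff₀ (binRate_pos hm)]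
      refine le_of_mul_le_mul_right ?_ (Real.sqrt_pos.2 (show (0 : ℝ) < n by linarith))
      rw [mul_right_comm, Real.mul_self_sqrt (Nat.cast_nonneg n)]
      linarith [hpow n hn1]
    have h5 := pow_le_pow_left₀ (Real.sqrt_nonneg _) h4 2
    rw [Real.sq_sqrt (Nat.cast_nonneg n)] at h5
    rw [hB]
    exact_mod_cast h5.trans (Nat.le_ceil _)
  refine (Nat.cast_le.2 ((card_le_card hsub).trans (card_union_le _ _))).trans ?_
  rw [Nat.cast_add, card_range, add_mul]
  refine add_le_add (h X hX) ?_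
  rw [Nat.cast_add_one, mul_assoc]
  refine le_mul_of_one_le_right (by positivity) ?_
  rw [mul_div_assoc', le_div_iff₀ (by positivity), one_mul]
  refine (hpow' X hX1).trans (mul_le_mul_of_nonneg_left ?_ hK'.le)
  rw [Real.sqrt_le_left (by positivity)]
  exact le_self_pow₀ hX1 two_ne_zero

/-- **The primes of one class are `≫ N / log N`.** -/
theorem exists_class_primes_lower {m a : ℕ} (hm : 0 < m) (ha : a.Coprime m) :
    ∃ (c : ℝ) (N₀ : ℕ), 0 < c ∧ ∀ N : ℕ, N₀ ≤ N →
      c * ((N : ℝ) / Real.log N) ≤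
        (((Icc 1 N).filter fun p => p.Prime ∧ p ≡ a [MOD m]).card : ℝ) := by
  obtain ⟨C, hC, h⟩ := ThreePrimesClasses.exists_class_major 1 1
  obtain ⟨K, hK, hpow⟩ := ThreePrimes.exists_log_pow_le 2
  obtain ⟨φ, hφ⟩ : ∃ φ : ℝ, φ = (m.totient : ℝ) := ⟨_, rfl⟩
  have hφ1 : 1 ≤ φ := hφ ▸ Nat.one_le_cast.2 (Nat.totient_pos.2 hm)
  refine ⟨1 / (2 * φ), max 2 ⌈Real.exp (4 * C * φ + 8 * K * φ + m + 1)⌉₊, by positivity,
    fun N hN => ?_⟩
  have hN2 : 2 ≤ N := le_trans (le_max_left _ _) hN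
  have hN0 : (0 : ℝ) < N := Nat.cast_pos.2 (by omega)
  obtain ⟨l, hl⟩ : ∃ l, l = Real.log N := ⟨_, rfl⟩
  rw [← hl]
  have hlb : 4 * C * φ + 8 * K * φ + m + 1 ≤ l := by
    rw [hl, Real.le_log_iff_exp_le hN0]
    exact (Nat.le_ceil _).trans (Nat.cast_le.2 (le_trans (le_max_right _ _) hN))
  have hu : 0 ≤ 4 * C * φ := by positivity
  have hv : 0 ≤ 8 * K * φ := by positivity
  have hm0 : (0 : ℝ) ≤ m := Nat.cast_nonneg m
  have hl1 : 1 ≤ l := by linarith
  have h1 := h m a N 1 0 0 hm one_pos hN2 (by rw [one_mul, pow_one, ← hl]; linarith)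
  have hfac : classFactor m a 1 0 = ((1 / φ : ℝ) : ℂ) := by
    have := ThreePrimesClasses.classFactor_eq (g := 1) (d := 1) (r := 0) (b := a) hm one_pos
      (one_dvd m) (Nat.coprime_one_left m) (by norm_num) ha (by rw [one_mul])
    rw [one_mul] at this
    rw [this, hφ]
    simp [ThreePrimes.moebiusR_isMultiplicative.1, ThreePrimes.eAdd_zero]
  have hgeom : ThreePrimes.geomSum N 0 = ((N : ℝ) : ℂ) := by
    simp [ThreePrimes.geomSum, ThreePrimes.eAdd_zero]
  have htwist : classTwist m a N (((0 : ℕ) : ℝ) / ((1 : ℕ) : ℝ) + 0) =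
      ((∑ n ∈ Icc 1 N, classLambda m a n : ℝ) : ℂ) := by
    rw [classTwist, ThreePrimes.trigSum, Complex.ofReal_sum]
    refine sum_congr rfl fun n _ => ?_
    simp [ThreePrimes.eAdd_zero]
  rw [htwist, hfac, hgeom, ← Complex.ofReal_mul, ← Complex.ofReal_sub, Complex.norm_real,
    Real.norm_eq_abs, pow_one, ← hl] at h1
  obtain ⟨S, hS⟩ : ∃ S, S = (Icc 1 N).filter fun p => p.Prime ∧ p ≡ a [MOD m] := ⟨_, rfl⟩
  rw [← hS]
  have h2 : ∑ n ∈ Icc 1 N, classLambda m a n ≤ S.card * l + 2 * √(N : ℝ) * l := by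
    refine (sum_le_sum (g := fun n => classLog m a n + powerPart n) fun n _ => by
      linarith [ThreePrimesClasses.classLambda_sub_le m a n]).trans ?_
    rw [sum_add_distrib]
    refine add_le_add ?_ (hl ▸ ThreePrimes.sum_powerPart_le (by omega))
    rw [hS, card_filter, Nat.cast_sum, sum_mul]
    refine sum_le_sum fun n hn => ?_
    rw [mem_Icc] at hn
    by_cases hp : n.Prime ∧ n ≡ a [MOD m]
    · rw [if_pos hp, Nat.cast_one, one_mul, classLog,
        if_pos (show n.Prime ∧ n % m = a % m from hp), hl]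
      exact Real.log_le_log (Nat.cast_pos.2 hn.1) (Nat.cast_le.2 hn.2)
    · rw [if_neg hp, classLog, if_neg (show ¬(n.Prime ∧ n % m = a % m) from hp)]
      simp
  have h3 : C * ((N : ℝ) / l) * 1 ≤ 1 / (4 * φ) * N := by
    rw [mul_one, mul_div_assoc', div_le_iff₀ (by linarith), one_div_mul_eq_div, div_mul_eq_mul_div,
      le_div_iff₀ (by linarith)]
    have := mul_le_mul_of_nonneg_left (show 4 * C * φ ≤ l by linarith) hN0.le
    linarith
  have h4 : 2 * √(N : ℝ) * l ≤ 1 / (4 * φ) * N := by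
    rw [one_div_mul_eq_div, le_div_iff₀ (by linarith)]
    refine le_of_mul_le_mul_right ?_ (show (0 : ℝ) < l by linarith)
    have hp := hpow N (by exact_mod_cast (show 1 ≤ N by omega))
    rw [← hl] at hp
    calc 2 * √(N : ℝ) * l * (4 * φ) * l = 8 * φ * √(N : ℝ) * l ^ 2 := by ring
      _ ≤ 8 * φ * √(N : ℝ) * (K * √(N : ℝ)) := mul_le_mul_of_nonneg_left hp (by positivity)
      _ = 8 * K * φ * (√(N : ℝ) * √(N : ℝ)) := by ring
      _ = 8 * K * φ * N := by rw [Real.mul_self_sqrt hN0.le]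
      _ ≤ l * N := mul_le_mul_of_nonneg_right (by linarith) hN0.le
      _ = _ := by ring
  simp only [abs_zero, mul_zero, zero_mul, add_zero] at h1
  have h5 := (abs_le.1 h1).1
  rw [mul_div_assoc', div_le_iff₀ (by linarith)]
  have e : 1 / (4 * φ) * (N : ℝ) + 1 / (4 * φ) * N + 1 / (2 * φ) * N = 1 / φ * N := by
    field_simp
    ring
  linarith

/-- **Three primes of one class in progression** beyond every bound. -/
theorem exists_class_progression {m a : ℕ} (hm : 0 < m) (ha : a.Coprime m) (B : ℕ) :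
    ∃ p q r : ℕ, (p.Prime ∧ p ≡ a [MOD m]) ∧ (q.Prime ∧ q ≡ a [MOD m]) ∧
      (r.Prime ∧ r ≡ a [MOD m]) ∧ B < q ∧ p < q ∧ q < r ∧ p + r = 2 * q := by
  classical
  obtain ⟨C, hC, h⟩ := exists_card_binExceptions_le hm ha ha 2
  obtain ⟨c, N₀, hc, hlow⟩ := exists_class_primes_lower hm ha
  obtain ⟨K, hK, hpow⟩ := ThreePrimes.exists_log_pow_le 1
  obtain ⟨N, hN1, hN2, hN3⟩ : ∃ N : ℕ, Real.exp (5 * C / c + 1) ≤ N ∧
      (4 * K * (B + 1) / c) ^ 2 ≤ (N : ℝ) ∧ N₀ ≤ N :=
    ⟨⌈Real.exp (5 * C / c + 1) + (4 * K * (B + 1) / c) ^ 2⌉₊ + N₀,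
      le_trans (le_trans (le_add_of_nonneg_right (sq_nonneg _)) (Nat.le_ceil _))
        (Nat.cast_le.2 (Nat.le_add_right _ _)),
      le_trans (le_trans (le_add_of_nonneg_left (Real.exp_pos _).le) (Nat.le_ceil _))
        (Nat.cast_le.2 (Nat.le_add_right _ _)), Nat.le_add_left _ _⟩
  by_contra hno
  push Not at hno
  have hN0 : (0 : ℝ) < N := lt_of_lt_of_le (Real.exp_pos _) hN1
  obtain ⟨l, hl⟩ : ∃ l, l = Real.log N := ⟨_, rfl⟩
  have hlb : 5 * C / c + 1 ≤ l := hl ▸ (Real.le_log_iff_exp_le hN0).2 hN1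
  have hu : 0 ≤ 5 * C / c := by positivity
  have hl0 : 0 < l := by linarith
  have hN1' : 1 < N := by
    by_contra hle
    have : Real.log N ≤ 0 := Real.log_nonpos hN0.le (by exact_mod_cast not_lt.1 hle)
    linarith
  obtain ⟨S, hS⟩ : ∃ S, S = (Icc 1 N).filter fun p => p.Prime ∧ p ≡ a [MOD m] := ⟨_, rfl⟩
  have hsub : S.image (2 * ·) ⊆
      binExceptions m a a (2 * N) ∪ (range (B + 1)).image (2 * ·) := by
    intro x hx
    rw [mem_image] at hx
    obtain ⟨q, hq, rfl⟩ := hx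
    rw [hS, mem_filter, mem_Icc] at hq
    rw [mem_union, binExceptions, mem_filter, mem_Icc, mem_image]
    by_cases hqB : q ≤ B
    · exact Or.inr ⟨q, mem_range.2 (Nat.lt_succ_of_le hqB), rfl⟩
    refine Or.inl ⟨⟨by omega, by omega⟩, by rw [two_mul]; exact hq.2.2.add hq.2.2,
      even_two_mul q, fun ⟨p, r, hp, hr, hpr, hsum⟩ => ?_⟩
    rcases lt_or_gt_of_ne hpr with hlt | hgt
    · exact hno p q r hp hq.2 hr (by omega) (by omega) (by omega) hsum
    · exact hno r q p hr hq.2 hp (by omega) (by omega) (by omega) (by omega)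
  have hcard : (S.card : ℝ) ≤ C * ((2 * N : ℕ) / Real.log (2 * N : ℕ) ^ 2) + (B + 1) := by
    have h1 := (card_le_card hsub).trans (card_union_le _ _)
    rw [card_image_of_injective _ (mul_right_injective₀ two_ne_zero),
      card_image_of_injective _ (mul_right_injective₀ two_ne_zero), card_range] at h1
    have h3 := Nat.cast_le (α := ℝ).2 h1
    push_cast at h3
    have := h (2 * N) (by omega)
    push_cast at this ⊢
    linarith
  have hlow' := hlow N hN3
  rw [← hS, ← hl, mul_div_assoc', div_le_iff₀ hl0] at hlow'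
  have hlog2N : l ≤ Real.log (2 * N : ℕ) := by
    rw [hl]
    exact Real.log_le_log hN0 (by push_cast; linarith)
  have h1 : C * (((2 * N : ℕ) : ℝ) / Real.log (2 * N : ℕ) ^ 2) * l ≤ c * N * (2 / 5) := by
    refine (mul_le_mul_of_nonneg_right (mul_le_mul_of_nonneg_left (div_le_div_of_nonneg_left
      (Nat.cast_nonneg _) (by positivity) (pow_le_pow_left₀ hl0.le hlog2N 2)) hC.le)
      hl0.le).trans ?_
    push_cast
    rw [show C * (2 * N / l ^ 2) * l = 2 * C * N / l by field_simp, div_le_iff₀ hl0]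
    have h7 : 5 * C ≤ c * l := by
      rw [mul_comm c]
      exact (div_le_iff₀ hc).1 (by linarith)
    have := mul_le_mul_of_nonneg_left h7 hN0.le
    linarith
  have h2 : ((B : ℝ) + 1) * l ≤ c * N / 4 := by
    have hp := hpow N (by exact_mod_cast hN1'.le)
    rw [pow_one, ← hl] at hp
    have hs : 4 * K * (B + 1) / c ≤ √(N : ℝ) :=
      (Real.le_sqrt (by positivity) hN0.le).2 hN2
    rw [div_le_iff₀ hc] at hs
    have := mul_le_mul_of_nonneg_right hs (Real.sqrt_nonneg (N : ℝ))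
    rw [mul_right_comm (√(N : ℝ)), Real.mul_self_sqrt hN0.le] at this
    have := mul_le_mul_of_nonneg_left hp (show 0 ≤ (B : ℝ) + 1 by positivity)
    linarith
  have h4 := mul_le_mul_of_nonneg_right hcard hl0.le
  have : 0 < c * N := mul_pos hc hN0
  linarith

end FA.BinaryClasses
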